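import Fermat.Agent.CFT.HasseNorm

/-!
# Quadratic reciprocity over totally complex fields: definitions

For a quadratic extension `F / K` of number fields, `K` totally complex, `R` a finite set of places
of `K` containing the ramified ones:

* `Split K F v` : the place `v` splits in `F`;
* `chi K F R v` : `1` if `v ∈ R` or `v` splits in `F`, `-1` otherwise;
* `dvs x` : the divisor of `x : Kˣ`; `ev f D = ∏_v f v ^ D v`;
* `Close R n x` : `x` is close to `1` at `R`.

The statements proved in this directory (`K` totally complex, `[F : K] = 2`, `R` finite,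
`∀ v ∉ R, Unr K F v`): `QRStatement K F R`, `QR2Statement K F R`, `HNStatement K F R`, and
`CHStatement K F F'` if `F`, `F'` are not isomorphic over `K`.
-/

set_option autoImplicit false
set_option linter.unusedSectionVars false
set_option linter.unusedVariables false

open NumberField IsDedekindDomain Module
open Fermat.Agent.CFT

namespace Fermat.Agent.CFT2

section defs

variable (K F : Type*) [Field K] [NumberField K] [Field F] [NumberField F] [Algebra K F]

/-- `v` splits in the quadratic extension `F`: there are two different places above `v`. -/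
def Split (v : HeightOneSpectrum (𝓞 K)) : Prop :=
  ∃ w w' : HeightOneSpectrum (𝓞 F), w ≠ w' ∧ SUH.below K w = v ∧ SUH.below K w' = v

/-- `v` is unramified in `F`. -/
def Unr (v : HeightOneSpectrum (𝓞 K)) : Prop :=
  ∀ w : HeightOneSpectrum (𝓞 F), SUH.below K w = v → v.asIdeal.ramificationIdx' w.asIdeal = 1

open Classical in
/-- The quadratic symbol of the extension `F / K` at the places outside `R`. -/
noncomputable def chi (R : Set (HeightOneSpectrum (𝓞 K))) (v : HeightOneSpectrum (𝓞 K)) : ℤˣ :=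
  if v ∈ R ∨ Split K F v then 1 else -1

end defs

section divisors

variable {K : Type*} [Field K] [NumberField K]

/-- the (additive) order of `x` at `v` -/
noncomputable def ord (v : HeightOneSpectrum (𝓞 K)) (x : Kˣ) : ℤ :=
  -Multiplicative.toAdd (v.valuationOfNeZero x)

theorem valuation_eq_exp_ord (v : HeightOneSpectrum (𝓞 K)) (x : Kˣ) :
    v.valuation K (x : K) = WithZero.exp (-ord v x) := by
  rw [← HeightOneSpectrum.valuationOfNeZero_eq, ord, neg_neg]
  rfl

theorem ord_eq_iff (v : HeightOneSpectrum (𝓞 K)) (x : Kˣ) (n : ℤ) :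
    ord v x = n ↔ v.valuation K (x : K) = WithZero.exp (-n) := by
  rw [valuation_eq_exp_ord, WithZero.exp_inj, neg_inj]

@[simp] theorem ord_one (v : HeightOneSpectrum (𝓞 K)) : ord v (1 : Kˣ) = 0 := by
  simp [ord]

theorem ord_mul (v : HeightOneSpectrum (𝓞 K)) (x y : Kˣ) : ord v (x * y) = ord v x + ord v y := by
  rw [ord, ord, ord, map_mul, toAdd_mul, neg_add]

theorem ord_inv (v : HeightOneSpectrum (𝓞 K)) (x : Kˣ) : ord v x⁻¹ = -ord v x := by
  have := ord_mul v x x⁻¹
  rw [mul_inv_cancel, ord_one] at this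
  omega

theorem ord_pow (v : HeightOneSpectrum (𝓞 K)) (x : Kˣ) (n : ℕ) : ord v (x ^ n) = n * ord v x := by
  induction n with
  | zero => simp
  | succ n ih => rw [pow_succ, ord_mul, ih]; push_cast; ring

theorem finite_ord_ne_zero (x : Kˣ) : {v : HeightOneSpectrum (𝓞 K) | ord v x ≠ 0}.Finite := by
  have h1 := HeightOneSpectrum.Support.finite (𝓞 K) (K := K) (x : K)
  have h2 := HeightOneSpectrum.Support.finite (𝓞 K) (K := K) ((x⁻¹ : Kˣ) : K)
  refine (h1.union h2).subset fun v hv => ?_
  rcases lt_or_gt_of_ne hv with h | h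
  · left
    show 1 < v.valuation K (x : K)
    rw [valuation_eq_exp_ord, ← WithZero.exp_zero, WithZero.exp_lt_exp]
    omega
  · right
    show 1 < v.valuation K ((x⁻¹ : Kˣ) : K)
    rw [valuation_eq_exp_ord, ← WithZero.exp_zero, WithZero.exp_lt_exp, ord_inv]
    omega

/-- the divisor of `x` -/
noncomputable def dvs : Additive Kˣ →+ (HeightOneSpectrum (𝓞 K) →₀ ℤ) where
  toFun x := Finsupp.ofSupportFinite (fun v => ord v x.toMul) (finite_ord_ne_zero x.toMul)
  map_zero' := by
    ext v
    exact ord_one v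
  map_add' x y := by
    ext v
    exact ord_mul v x.toMul y.toMul

@[simp] theorem dvs_apply (x : Kˣ) (v : HeightOneSpectrum (𝓞 K)) :
    dvs (Additive.ofMul x) v = ord v x := rfl

theorem dvs_mul (x y : Kˣ) :
    dvs (Additive.ofMul (x * y)) = dvs (Additive.ofMul x) + dvs (Additive.ofMul y) :=
  map_add dvs (Additive.ofMul x) (Additive.ofMul y)

theorem dvs_inv (x : Kˣ) : dvs (Additive.ofMul x⁻¹) = -dvs (Additive.ofMul x) :=
  map_neg dvs (Additive.ofMul x)

/-- evaluation of a multiplicative function on a divisor -/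
noncomputable def ev {G : Type*} [CommGroup G] (f : HeightOneSpectrum (𝓞 K) → G)
    (D : HeightOneSpectrum (𝓞 K) →₀ ℤ) : G := D.prod fun v n => f v ^ n

variable {G : Type*} [CommGroup G] (f : HeightOneSpectrum (𝓞 K) → G)

@[simp] theorem ev_zero : ev f 0 = 1 := Finsupp.prod_zero_index

theorem ev_add (D D' : HeightOneSpectrum (𝓞 K) →₀ ℤ) : ev f (D + D') = ev f D * ev f D' :=
  Finsupp.prod_add_index' (fun v => zpow_zero _) (fun v a b => zpow_add _ a b)

@[simp] theorem ev_single (v : HeightOneSpectrum (𝓞 K)) (n : ℤ) :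
    ev f (Finsupp.single v n) = f v ^ n :=
  Finsupp.prod_single_index (zpow_zero _)

theorem ev_neg (D : HeightOneSpectrum (𝓞 K) →₀ ℤ) : ev f (-D) = (ev f D)⁻¹ := by
  rw [eq_inv_iff_mul_eq_one, ← ev_add, neg_add_cancel, ev_zero]

theorem ev_sub (D D' : HeightOneSpectrum (𝓞 K) →₀ ℤ) : ev f (D - D') = ev f D / ev f D' := by
  rw [sub_eq_add_neg, ev_add, ev_neg, div_eq_mul_inv]

theorem ev_eq_finprod (D : HeightOneSpectrum (𝓞 K) →₀ ℤ) : ev f D = ∏ᶠ v, f v ^ D v := by
  rw [ev, Finsupp.prod, finprod_eq_prod_of_mulSupport_subset]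
  intro v hv
  rw [Function.mem_mulSupport] at hv
  rw [Finset.mem_coe, Finsupp.mem_support_iff]
  intro h
  exact hv (by rw [h, zpow_zero])

theorem ev_mul_fun (g : HeightOneSpectrum (𝓞 K) → G) (D : HeightOneSpectrum (𝓞 K) →₀ ℤ) :
    ev (fun v => f v * g v) D = ev f D * ev g D := by
  rw [ev, ev, ev, ← Finsupp.prod_mul]
  simp_rw [mul_zpow]

theorem ev_congr {f g : HeightOneSpectrum (𝓞 K) → G} (D : HeightOneSpectrum (𝓞 K) →₀ ℤ)
    (h : ∀ v, D v ≠ 0 → f v = g v) : ev f D = ev g D :=
  Finset.prod_congr rfl fun v hv => by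
    show f v ^ D v = g v ^ D v
    rw [h v (Finsupp.mem_support_iff.1 hv)]

theorem map_ev {G' : Type*} [CommGroup G'] (φ : G →* G') (D : HeightOneSpectrum (𝓞 K) →₀ ℤ) :
    φ (ev f D) = ev (fun v => φ (f v)) D := by
  rw [ev, ev, map_finsuppProd]
  simp_rw [map_zpow]

/-- `x` is close to `1` at the places of `R` -/
def Close (R : Set (HeightOneSpectrum (𝓞 K))) (n : ℕ) (x : Kˣ) : Prop :=
  ∀ v ∈ R, v.valuation K ((x : K) - 1) ≤ WithZero.exp (-(n : ℤ))

end divisors

section statements

variable (K F : Type*) [Field K] [NumberField K] [Field F] [NumberField F] [Algebra K F]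

/-- Quadratic reciprocity: the quadratic symbol of `F / K` is a ray class character. -/
def QRStatement (R : Set (HeightOneSpectrum (𝓞 K))) : Prop :=
  ∃ n : ℕ, ∀ x : Kˣ, Close R n x → ev (chi K F R) (dvs (Additive.ofMul x)) = 1

/-- The kernel of the quadratic symbol consists of norms times principal divisors. -/
def QR2Statement (R : Set (HeightOneSpectrum (𝓞 K))) : Prop :=
  ∀ (n : ℕ) (b : HeightOneSpectrum (𝓞 K) →₀ ℤ), ev (chi K F R) b = 1 →
    ∃ x : Kˣ, Close R n x ∧ ∀ v ∉ R, Split K F v ∨ Even (ord v x + b v)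

/-- The Hasse norm theorem with control at `R`. -/
def HNStatement (R : Set (HeightOneSpectrum (𝓞 K))) : Prop :=
  ∀ n' : ℕ, ∃ n : ℕ, ∀ x : Kˣ, Close R n x → (∀ v ∉ R, Split K F v ∨ Even (ord v x)) →
    ∃ y : Fˣ, SUH.nrm K F y = x ∧ Close (SUH.above F R) n' y

/-- Existence of places with prescribed splitting in two quadratic extensions. -/
def CHStatement (F' : Type*) [Field F'] [NumberField F'] [Algebra K F'] : Prop :=
  ∀ B : Set (HeightOneSpectrum (𝓞 K)), B.Finite → ∃ v ∉ B, Split K F v ∧ ¬ Split K F' v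

end statements

end Fermat.Agent.CFT2
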