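import Fermat.Agent.CFT2.Dict

/-!
# Existence of places with prescribed splitting in two quadratic extensions

`ch`: the statement `CHStatement` of `CFT2/API.lean`.
-/

set_option autoImplicit false
set_option linter.unusedSectionVars false

open NumberField IsDedekindDomain Module Polynomial
open Fermat.Agent.CFT.W Fermat.Agent.CFT.Embed Fermat.Agent.CFT.SUnits
open Fermat.Agent.CFT.NormGrp Fermat.Agent.CFT.First Fermat.Agent.CFT.ChoosePrime
open Fermat.Agent.CFT

namespace Fermat.Agent.CFT2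

section alg

variable {K F F' : Type*} [Field K] [Field F] [Algebra K F] [Field F'] [Algebra K F']

theorem nonempty_adjoinRoot_equiv (hd : finrank K F = 2) {a : K} (ha : ∀ c : K, c ^ 2 ≠ a)
    {α : F} (hα : α ^ 2 = algebraMap K F a) :
    Nonempty (AdjoinRoot (X ^ 2 - C a) ≃ₐ[K] F) := by
  have : Fact (Irreducible (X ^ 2 - C a)) :=
    ⟨X_pow_sub_C_irreducible_of_prime Nat.prime_two ha⟩
  have hf : FiniteDimensional K F := FiniteDimensional.of_finrank_pos (by rw [hd]; norm_num)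
  have hd2 : finrank K (AdjoinRoot (X ^ 2 - C a)) = 2 := Kummer.finrank_adjoinRoot Nat.prime_two
  have hf2 : FiniteDimensional K (AdjoinRoot (X ^ 2 - C a)) :=
    FiniteDimensional.of_finrank_pos (by rw [hd2]; norm_num)
  let f : AdjoinRoot (X ^ 2 - C a) →ₐ[K] F :=
    AdjoinRoot.liftAlgHom _ (Algebra.ofId K F) α (by
      rw [eval₂_sub, eval₂_X_pow, eval₂_C, sub_eq_zero]
      exact hα)
  refine ⟨AlgEquiv.ofBijective f ⟨f.injective, ?_⟩⟩
  exact (LinearMap.injective_iff_surjective_of_finrank_eq_finrank (f := f.toLinearMap)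
    (hd2.trans hd.symm)).1 f.injective

theorem nonempty_algEquiv (hd : finrank K F = 2) (hd' : finrank K F' = 2) {a a' c : K}
    (ha : ∀ c : K, c ^ 2 ≠ a) {α : F} (hα : α ^ 2 = algebraMap K F a) {α' : F'}
    (hα' : α' ^ 2 = algebraMap K F' a') (hc : c ≠ 0) (h : a' = a * c ^ 2) :
    Nonempty (F ≃ₐ[K] F') := by
  obtain ⟨e⟩ := nonempty_adjoinRoot_equiv hd ha hα
  have hc' : algebraMap K F' c ≠ 0 := by rwa [Ne, map_eq_zero]
  obtain ⟨e'⟩ := nonempty_adjoinRoot_equiv (F := F') hd' ha (α := α' / algebraMap K F' c) (by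
    rw [div_pow, hα', h, map_mul, map_pow, mul_div_assoc, div_self (pow_ne_zero _ hc'), mul_one])
  exact ⟨e.symm.trans e'⟩

end alg

variable {K : Type*} [Field K] [NumberField K] {F : Type*} [Field F] [NumberField F] [Algebra K F]
  {F' : Type*} [Field F'] [NumberField F'] [Algebra K F']

/-- **Places split in `F` and not split in `F'`.** -/
theorem ch (hd : finrank K F = 2) (hd' : finrank K F' = 2) (hne : IsEmpty (F ≃ₐ[K] F')) :
    CHStatement K F F' := by
  intro B hB
  obtain ⟨a, α, σ, hD, hα, ha⟩ := exists_kummer_two hd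
  obtain ⟨a', α', σ', hD', hα', ha'⟩ := exists_kummer_two hd'
  have h2K : (2 : 𝓞 K) ≠ 0 := two_ne_zero
  have hB2 : {P : HeightOneSpectrum (𝓞 K) | P.asIdeal ∣ Ideal.span {(2 : 𝓞 K)}}.Finite :=
    Ideal.finite_factors (by rw [Submodule.zero_eq_bot, Ne, Ideal.span_singleton_eq_bot]; exact h2K)
  have hcl : a' ∉ Subgroup.closure {x | x ∈ [a]} ⊔ (powMonoidHom 2 : Kˣ →* Kˣ).range := by
    intro h
    obtain ⟨y, hy, t, ⟨c, rfl⟩, hyt⟩ := Subgroup.mem_sup.1 h
    have h1 : {x | x ∈ [a]} = ({a} : Set Kˣ) := by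
      ext x
      simp
    rw [h1, ← Subgroup.zpowers_eq_closure] at hy
    obtain ⟨k, rfl⟩ := hy
    have hyt' : a ^ k * c ^ 2 = a' := hyt
    rcases Int.even_or_odd' k with ⟨j, rfl | rfl⟩
    · apply ha' ((a ^ j * c : Kˣ) : K)
      rw [← hyt', ← Units.val_pow_eq_pow_val, mul_pow, zpow_mul, zpow_ofNat]
      congr 2
      rw [← zpow_natCast, ← zpow_mul, ← zpow_natCast, ← zpow_mul, mul_comm]
    · apply hne.elim'
      refine (nonempty_algEquiv hd hd' ha hD.pow_eq hD'.pow_eq (c := ((a ^ j * c : Kˣ) : K))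
        (Units.ne_zero _) ?_).some
      rw [← hyt', ← Units.val_pow_eq_pow_val, ← Units.val_mul]
      congr 1
      rw [mul_pow, zpow_add, zpow_one, zpow_mul, ← mul_assoc, mul_comm a]
      congr 2
      exact zpow_comm a 2 j
  obtain ⟨P, hPB, -, hPa', hnot, hl⟩ := exists_prime Nat.prime_two 1 K
    (hzeta (K := K)) a' [a] rfl hcl (B ∪ _) (hB.union hB2)
  obtain ⟨hPa, hpow⟩ := hl a (by simp)
  rw [Set.mem_union, not_or] at hPB
  obtain ⟨e, rfl⟩ := LocEmb.exists_locEmb K P
  have hq : 2 ≠ e.q := by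
    intro h
    apply hPB.2
    have h3 := e.natCast_mem_v
    rw [← h] at h3
    exact Ideal.dvd_span_singleton.2 (by exact_mod_cast h3)
  refine ⟨e.v, hPB.1, ?_, ?_⟩
  · rw [split_iff e hD hα]
    exact (LT.I8.LocEmb.isPow_iff e Nat.prime_two hq hPa).2 hpow
  · rw [split_iff e hD' hα']
    intro h
    exact hnot ((LT.I8.LocEmb.isPow_iff e Nat.prime_two hq hPa').1 h)

end Fermat.Agent.CFT2
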