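import Fermat.Agent.CFT2.Recip4
import Fermat.Agent.LT.D.Hasse

/-!
# Dictionary between splitting of places and local norm groups for quadratic extensions
-/

set_option autoImplicit false
set_option linter.unusedSectionVars false

open NumberField IsDedekindDomain Module Polynomial
open Fermat.Agent.CFT.W Fermat.Agent.CFT.Embed Fermat.Agent.CFT.SUnits
open Fermat.Agent.CFT.NormGrp Fermat.Agent.CFT.First Fermat.Agent.CFT.ChoosePrime
open Fermat.Agent.CFT.Second (pw mem_pw pow_mem_pw mem_pw_units Aux pls_sum injective_sum PV mem_PV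
  PV_le_H relIndex_pw_unit card_pls)
open Fermat.Agent.CFT.HasseNorm (globNorm mem_globNorm exists_family finite_mem)
open Fermat.Agent.CFT
open Fermat.Agent.LT.I8 (exists_aux index_PV index_formula index_le exists_pow_of_local
  second_inequality_aux)

namespace Fermat.Agent.CFT2

variable {K : Type*} [Field K] [NumberField K] {F : Type*} [Field F] [NumberField F] [Algebra K F]

theorem isGalois_of_two (hd : finrank K F = 2) : IsGalois K F := by
  have : Algebra.IsQuadraticExtension K F := { finrank_eq_two' := hd }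
  infer_instance

theorem exists_kummer_two (hd : finrank K F = 2) :
    ∃ (a : Kˣ) (α : F) (σ : F ≃ₐ[K] F), Kummer.Data K F 2 (-1) (a : K) α σ ∧ α ≠ 0 ∧
      ∀ c : K, c ^ 2 ≠ (a : K) := by
  have := isGalois_of_two hd
  obtain ⟨a, α, σ, hD, hα, ha⟩ := LT.D.exists_kummer Nat.prime_two (hzeta (K := K)) hd
  have ha0 : a ≠ 0 := by
    rintro rfl
    exact ha 0 (by norm_num)
  exact ⟨Units.mk0 a ha0, α, σ, hD, hα, ha⟩

/-- `Split` in terms of the number of places above -/
theorem split_iff_gnum (v : HeightOneSpectrum (𝓞 K)) : Split K F v ↔ SUH.gnum F v ≠ 1 := by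
  have hfin : (Ideal.primesOver v.asIdeal (𝓞 F)).Finite := IsDedekindDomain.primesOver_finite _ _
  have hne : (Ideal.primesOver v.asIdeal (𝓞 F)).Nonempty := by
    obtain ⟨P⟩ := (inferInstance : Nonempty (Ideal.primesOver v.asIdeal (𝓞 F)))
    exact ⟨P.1, P.2⟩
  have hmem : ∀ w : HeightOneSpectrum (𝓞 F), SUH.below K w = v →
      w.asIdeal ∈ Ideal.primesOver v.asIdeal (𝓞 F) := by
    intro w hw
    refine ⟨w.isPrime, ⟨?_⟩⟩
    rw [← hw]
    rfl
  constructor
  · rintro ⟨w, w', hne, hw, hw'⟩ h1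
    rw [SUH.gnum, Set.ncard_eq_one] at h1
    obtain ⟨Q, hQ⟩ := h1
    have h2 := hmem w hw
    have h3 := hmem w' hw'
    rw [hQ] at h2 h3
    exact hne (HeightOneSpectrum.ext ((Set.mem_singleton_iff.1 h2).trans
      (Set.mem_singleton_iff.1 h3).symm))
  · intro h1
    have h2 : 1 < (Ideal.primesOver v.asIdeal (𝓞 F)).ncard := by
      have h3 : (Ideal.primesOver v.asIdeal (𝓞 F)).ncard ≠ 0 := by
        rw [Ne, Set.ncard_eq_zero hfin]
        exact hne.ne_empty
      change (Ideal.primesOver v.asIdeal (𝓞 F)).ncard ≠ 1 at h1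
      omega
    rw [Set.one_lt_ncard hfin] at h2
    obtain ⟨P, hP, Q, hQ, hPQ⟩ := h2
    have hP0 := SUH.ne_bot_of_over v P hP.2
    have hQ0 := SUH.ne_bot_of_over v Q hQ.2
    refine ⟨⟨P, hP.1, hP0⟩, ⟨Q, hQ.1, hQ0⟩, fun h ↦ hPQ (congrArg HeightOneSpectrum.asIdeal h),
      HeightOneSpectrum.ext ?_, HeightOneSpectrum.ext ?_⟩
    · exact hP.2.over.symm
    · exact hQ.2.over.symm

section
variable {a : Kˣ} {α : F} {σ : F ≃ₐ[K] F}

/-- `e.v` splits iff `a` is a local square. -/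
theorem split_iff (e : LocEmb K) (hD : Kummer.Data K F 2 (-1) (a : K) α σ) (hα : α ≠ 0) :
    Split K F e.v ↔ ∃ c : e.L, c ^ 2 = e.toL (a : K) := by
  rw [split_iff_gnum]
  change SUH.gnum F (pl e.φ) ≠ 1 ↔ _
  rw [Ne, gnum_eq_one_iff e.q hD Nat.prime_two hzeta hα]
  push Not
  constructor
  · rintro ⟨c, hc, hca⟩
    exact ⟨⟨c, hc⟩, Subtype.ext hca⟩
  · rintro ⟨c, hc⟩
    exact ⟨c, c.2, congrArg Subtype.val hc⟩

/-- **Units are norms** in the unramified case. -/
theorem unit_mem_N_of_unr (e : LocEmb K) (hD : Kummer.Data K F 2 (-1) (a : K) α σ)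
    (hur : Unr K F e.v) (u : (e.L)ˣ) (hu : ‖(u : e.L)‖ = 1) : u ∈ e.N 2 (a : K) := by
  have hp := Nat.prime_two
  by_cases hns : ∃ c : e.L, c ^ 2 = e.toL (a : K)
  · rw [LocEmb.N, normGrp_eq_top hns]; exact Subgroup.mem_top _
  push Not at hns
  let M : Subgroup (e.L)ˣ :=
    { carrier := {x | ∃ z : K, z ≠ 0 ∧ ‖(x : e.L)‖ = ‖e.toL z‖ ^ 2}
      one_mem' := ⟨1, one_ne_zero, by simp⟩
      mul_mem' := by
        rintro x y ⟨z, hz, hxz⟩ ⟨t, ht, hyt⟩
        refine ⟨z * t, mul_ne_zero hz ht, ?_⟩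
        rw [Units.val_mul, norm_mul, hxz, hyt, map_mul, norm_mul, mul_pow]
      inv_mem' := by
        rintro x ⟨z, hz, hxz⟩
        refine ⟨z⁻¹, inv_ne_zero hz, ?_⟩
        rw [Units.val_inv_eq_inv_val, norm_inv, hxz, map_inv₀, norm_inv, inv_pow] }
  have hle : e.N 2 (a : K) ≤ M := fun x hx ↦
    LT.D.norm_mem_pow_of_mem_N e hp hD hzeta hns hur hx
  have hidx := LT.I8.LocEmb.index_N e hp hzeta hns
  obtain ⟨π, hπ⟩ := e.v.valuation_exists_uniformizer K
  have hπ0 : π ≠ 0 := by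
    rintro rfl
    rw [map_zero] at hπ
    exact WithZero.coe_ne_zero hπ.symm
  have hMtop : M ≠ ⊤ := by
    intro htop
    have h1 : e.toU (Units.mk0 π hπ0) ∈ M := by rw [htop]; exact Subgroup.mem_top _
    obtain ⟨z, hz, hzn⟩ := h1
    refine e.uniformizer_ne hp hπ (e.toL π / (e.toL z) ^ 2) (e.toL z) ?_ ?_
    · have h2 : ‖e.toL π‖ = ‖e.toL z‖ ^ 2 := hzn
      have h3 : ‖e.toL z‖ ≠ 0 := by
        rw [norm_ne_zero_iff, Ne, map_eq_zero]; exact hz
      rw [norm_div, norm_pow, h2, div_self (pow_ne_zero _ h3)]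
    · have h3 : e.toL z ≠ 0 := by rw [Ne, map_eq_zero]; exact hz
      rw [div_mul_cancel₀ _ (pow_ne_zero _ h3)]
  have h4 : e.N 2 (a : K) = M := eq_of_index_le_two hle hidx.le (by rw [hidx]; norm_num) hMtop
  rw [h4]
  exact ⟨1, one_ne_zero, by rw [hu, map_one, norm_one, one_pow]⟩

/-- Local norms at an unramified place. -/
theorem toU_mem_N_iff (e : LocEmb K) (hD : Kummer.Data K F 2 (-1) (a : K) α σ) (hα : α ≠ 0)
    (hur : Unr K F e.v) (y : Kˣ) :
    e.toU y ∈ e.N 2 (a : K) ↔ Split K F e.v ∨ Even (ord e.v y) := by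
  by_cases hns : ∃ c : e.L, c ^ 2 = e.toL (a : K)
  · rw [LocEmb.N, normGrp_eq_top hns]
    exact iff_of_true (Subgroup.mem_top _) (Or.inl ((split_iff e hD hα).2 hns))
  have hsp : ¬ Split K F e.v := fun h ↦ hns ((split_iff e hD hα).1 h)
  push Not at hns
  constructor
  · intro hy
    right
    obtain ⟨z, hz0, hz⟩ := LT.D.norm_mem_pow_of_mem_N e Nat.prime_two hD hzeta hns hur hy
    have h1 : ‖e.toL (y : K)‖ = ‖e.toL (z ^ 2)‖ := by rw [map_pow, norm_pow]; exact hz
    rw [← e.valuation_eq_iff] at h1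
    have h2 : ord e.v y = ord e.v ((Units.mk0 z hz0) ^ 2) := by
      rw [ord_eq_iff, ← valuation_eq_exp_ord, h1]
      rfl
    rw [h2, ord_pow]
    exact ⟨ord e.v (Units.mk0 z hz0), by push_cast; ring⟩
  · rintro (h | ⟨k, hk⟩)
    · exact absurd h hsp
    · obtain ⟨π, hπ⟩ := e.v.valuation_exists_uniformizer K
      have hπ0 : π ≠ 0 := by
        rintro rfl
        rw [map_zero] at hπ
        exact WithZero.coe_ne_zero hπ.symm
      let P : Kˣ := Units.mk0 π hπ0
      have hP : ord e.v P = 1 := by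
        rw [ord_eq_iff]; exact hπ
      have h1 : y = (P ^ k) ^ 2 * (y * ((P ^ k) ^ 2)⁻¹) := by
        rw [mul_comm y, mul_inv_cancel_left]
      have hordz : ∀ n : ℤ, ord e.v (P ^ n) = n := by
        intro n
        have : ord e.v (P ^ n) = n * ord e.v P := by
          rw [ord, ord, map_zpow, toAdd_zpow, smul_eq_mul]
          ring
        rw [this, hP, mul_one]
      rw [h1, map_mul, map_pow]
      refine mul_mem (pow_mem_normGrp Nat.prime_two _) (unit_mem_N_of_unr e hD hur _ ?_)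
      rw [LocEmb.coe_toU, ← e.valuation_eq_one_iff, ← WithZero.exp_zero]
      have h2 : ord e.v (y * ((P ^ k) ^ 2)⁻¹) = 0 := by
        rw [ord_mul, ord_inv, ord_pow, hordz, hk]
        push_cast
        ring
      rw [ord_eq_iff, neg_zero] at h2
      exact h2

theorem lsym_toU (e : LocEmb K) (hD : Kummer.Data K F 2 (-1) (a : K) α σ) (hα : α ≠ 0)
    {R : Set (HeightOneSpectrum (𝓞 K))} (hR : e.v ∉ R) (hur : Unr K F e.v) (y : Kˣ) :
    lsym e (a : K) (e.toU y) = chi K F R e.v ^ ord e.v y := by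
  classical
  by_cases hs : Split K F e.v
  · rw [chi, if_pos (Or.inr hs), one_zpow, lsym_eq_one_iff, toU_mem_N_iff e hD hα hur]
    exact Or.inl hs
  · rw [chi, if_neg (by rw [not_or]; exact ⟨hR, hs⟩)]
    rcases Int.even_or_odd (ord e.v y) with h | h
    · rw [h.neg_one_zpow, lsym_eq_one_iff, toU_mem_N_iff e hD hα hur]
      exact Or.inr h
    · rw [h.neg_one_zpow]
      refine (Int.units_eq_one_or _).resolve_left (fun h1 ↦ ?_)
      rw [lsym_eq_one_iff, toU_mem_N_iff e hD hα hur] at h1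
      rcases h1 with h1 | h1
      · exact hs h1
      · exact (Int.not_even_iff_odd.2 h) h1

end

theorem ev_eq_prod {G : Type*} [CommGroup G] {ι : Type} [Fintype ι] {e : ι → LocEmb K}
    (he : Function.Injective fun i ↦ (e i).v) (f : HeightOneSpectrum (𝓞 K) → G)
    (D : HeightOneSpectrum (𝓞 K) →₀ ℤ) (h : ∀ v, v ∉ pls e → D v = 0) :
    ev f D = ∏ i, f (e i).v ^ D (e i).v := by
  classical
  rw [ev, Finsupp.prod_of_support_subset (s := Finset.univ.image fun i ↦ (e i).v)]
  · rw [Finset.prod_image (fun i _ j _ hij ↦ he hij)]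
  · intro v hv
    rw [Finset.mem_image]
    by_contra hne
    rw [Finsupp.mem_support_iff] at hv
    apply hv
    apply h
    rintro ⟨i, hi⟩
    exact hne ⟨i, Finset.mem_univ i, hi⟩
  · intro v _
    exact zpow_zero _

end Fermat.Agent.CFT2
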