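import Fermat.Agent.CFT2.QR

/-!
# The Hasse norm theorem for quadratic extensions, with control at finitely many places

`hn`: the statement `HNStatement` of `CFT2/API.lean`.
-/

set_option autoImplicit false
set_option linter.unusedSectionVars false

open NumberField IsDedekindDomain Module Polynomial Filter Topology
open Fermat.Agent.CFT.W Fermat.Agent.CFT.Embed Fermat.Agent.CFT.SUnits
open Fermat.Agent.CFT.NormGrp Fermat.Agent.CFT.First Fermat.Agent.CFT.ChoosePrime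
open Fermat.Agent.CFT.HasseNorm (globNorm mem_globNorm exists_family finite_mem)
open Fermat.Agent.CFT

namespace Fermat.Agent.CFT2

variable {K : Type*} [Field K] [NumberField K]

/-- The local function used in the descent: `G c = b (s + b' / c * s') / (s' + b / c * s)`. -/
theorem local_cont {L : Type*} [NormedField L] {b b' s s' c₀ : L} (hc0 : c₀ ≠ 0)
    (hbb : b * b' = c₀ ^ 2) (hden : s' + b / c₀ * s ≠ 0) {ε : ℝ} (hε : 0 < ε) :
    ∃ δ : ℝ, 0 < δ ∧ ∀ c : L, ‖c - c₀‖ < δ → c ≠ 0 ∧ s' + b / c * s ≠ 0 ∧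
      ‖b * (s + b' / c * s') / (s' + b / c * s) - c₀‖ < ε := by
  have h1 : ContinuousAt (fun c : L ↦ s' + b / c * s) c₀ :=
    continuousAt_const.add ((continuousAt_const.div continuousAt_id hc0).mul continuousAt_const)
  have h2 : ContinuousAt (fun c : L ↦ b * (s + b' / c * s')) c₀ :=
    continuousAt_const.mul
      (continuousAt_const.add ((continuousAt_const.div continuousAt_id hc0).mul continuousAt_const))
  have h3 : ContinuousAt (fun c : L ↦ b * (s + b' / c * s') / (s' + b / c * s)) c₀ :=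
    h2.div h1 hden
  have h4 : b * (s + b' / c₀ * s') / (s' + b / c₀ * s) = c₀ := by
    rw [div_eq_iff hden]
    field_simp
    linear_combination (s') * hbb
  have e1 : ∀ᶠ c in 𝓝 c₀, c ≠ 0 := eventually_ne_nhds hc0
  have e2 : ∀ᶠ c in 𝓝 c₀, s' + b / c * s ≠ 0 := h1.eventually_ne hden
  have e3 : ∀ᶠ c in 𝓝 c₀, ‖b * (s + b' / c * s') / (s' + b / c * s) - c₀‖ < ε := by
    have h5 := Metric.tendsto_nhds.1 h3 ε hε
    filter_upwards [h5] with c hc
    rwa [dist_eq_norm, h4] at hc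
  obtain ⟨δ, hδ, h⟩ := Metric.eventually_nhds_iff.1 (e1.and (e2.and e3))
  exact ⟨δ, hδ, fun c hc ↦ h (by rwa [dist_eq_norm])⟩

/-- at most one bad parameter -/
theorem bad_subsingleton {L : Type*} [Field L] [CharZero L] {u β : L} (hβ : β ≠ 0) :
    {m : ℕ | (1 - (m : L) * β) + u * (1 + (m : L) * β) = 0}.Subsingleton := by
  intro m hm m' hm'
  simp only [Set.mem_ofPred_eq] at hm hm'
  by_contra hne
  have h1 : ((m : L) - m') * ((u - 1) * β) = 0 := by linear_combination hm - hm'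
  have h2 : (m : L) - m' ≠ 0 := sub_ne_zero.2 (by exact_mod_cast hne)
  have h3 : u - 1 = 0 := (mul_eq_zero.1 ((mul_eq_zero.1 h1).resolve_left h2)).resolve_right hβ
  have h4 : u = 1 := sub_eq_zero.1 h3
  rw [h4] at hm
  have h5 : (2 : L) = 0 := by linear_combination hm
  exact two_ne_zero h5

variable {F : Type*} [Field F] [NumberField F] [Algebra K F]

/-- **The Hasse norm theorem with control at `R`.** -/
theorem hn [IsTotallyComplex K] (hd : finrank K F = 2) {R : Set (HeightOneSpectrum (𝓞 K))}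
    (hR : R.Finite) (hur : ∀ v ∉ R, Unr K F v) : HNStatement K F R := by
  classical
  obtain ⟨a, α, σ, hD, hα, -⟩ := exists_kummer_two hd
  obtain ⟨m0, e, he, hpls⟩ := exists_family R hR
  have hσα : σ α = -α := by
    rw [hD.apply_root]; simp
  have hRfin : Finite R := hR
  let A := {w : HeightOneSpectrum (𝓞 F) // w ∈ SUH.above F R}
  have hA : Finite A := SUH.finite_above hR
  have hex : ∀ w : A, ∃ (i : Fin m0) (ψ : F →+* PadicAlgCl (e i).q),
      (∀ x : K, ψ (algebraMap K F x) = (e i).φ x) ∧ pl ψ = w.1 := by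
    intro w
    have h1 : SUH.below K w.1 ∈ pls e := by rw [hpls]; exact w.2
    obtain ⟨i, hi⟩ := h1
    obtain ⟨ψ, h2, h3⟩ := exists_extension_pl (e i).q (e i).φ w.1 hi.symm
    exact ⟨i, ψ, h2, h3⟩
  choose I ψ hψ hpl using hex
  intro n'
  have hδex : ∀ w : A, ∃ δ : ℝ, 0 < δ ∧ ∀ z : F, ‖ψ w z‖ < δ →
      w.1.valuation F z ≤ WithZero.exp (-(n' : ℤ)) := by
    intro w
    obtain ⟨δ, h1, h2⟩ := exists_valuation_le (K := F) ⟨(e (I w)).q, ψ w⟩ n'
    refine ⟨δ, h1, fun z hz ↦ ?_⟩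
    have h3 := h2 z hz
    have h4 : (⟨(e (I w)).q, ψ w⟩ : LocEmb F).v = w.1 := hpl w
    rwa [h4] at h3
  choose δ hδ0 hδ using hδex
  obtain ⟨ε, hε, hεδ⟩ : ∃ ε : ℝ, 0 < ε ∧ ∀ w : A, ε ≤ δ w := by
    by_cases hι : IsEmpty A
    · exact ⟨1, one_pos, fun i ↦ (hι.false i).elim⟩
    rw [not_isEmpty_iff] at hι
    obtain ⟨w₀, h0⟩ := Finite.exists_min δ
    exact ⟨δ w₀, hδ0 w₀, h0⟩
  obtain ⟨n, hn⟩ := exists_close_sq e (half_pos hε)
  refine ⟨n, fun x hx hx2 ↦ ?_⟩
  -- the global norm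
  obtain ⟨y0, hy0⟩ := LT.I8.hasse_norm Nat.prime_two hzeta hD hα x (fun e' ↦ by
    by_cases h : e'.v ∈ R
    · rw [← hpls] at h
      obtain ⟨j, hj⟩ := h
      obtain ⟨c, hc, -⟩ := hn x (by rwa [hpls]) j
      exact LocEmb.mem_N_of_v_eq (e := e j) hj Nat.prime_two (toU_mem_N_of_sq _ _ hc)
    · exact (toU_mem_N_iff e' hD hα (hur _ h) x).2 (hx2 _ h))
  by_cases hemp : IsEmpty A
  · exact ⟨y0, hy0, fun w hw ↦ (hemp.false ⟨w, hw⟩).elim⟩
  rw [not_isEmpty_iff] at hemp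
  choose c hc1 hc2 using hn x (by rwa [hpls])
  have hnorm : (y0 : F) * σ y0 = algebraMap K F x := by
    have h1 := prod_pow_eq_norm hD Nat.prime_two (y0 : F)
    rw [Finset.prod_range_succ, Finset.prod_range_one, pow_zero, pow_one, AlgEquiv.one_apply] at h1
    rw [h1]
    congr 1
    exact congrArg Units.val hy0
  have hσy0 : σ (y0 : F) ≠ 0 := by rw [Ne, map_eq_zero]; exact y0.ne_zero
  have hσσ : σ (σ (y0 : F)) = y0 := by
    have h1 : σ ((y0 : F) * σ y0) = (y0 : F) * σ y0 := by rw [hnorm, AlgEquiv.commutes]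
    rw [map_mul, mul_comm (y0 : F)] at h1
    exact mul_left_cancel₀ hσy0 h1
  have hc0 : ∀ i, c i ≠ 0 := by
    intro i h0
    have h1 := hc1 i
    rw [h0, zero_pow two_ne_zero] at h1
    exact (map_ne_zero (e i).toL).2 x.ne_zero h1.symm
  let C : ∀ w : A, PadicAlgCl (e (I w)).q := fun w ↦ (c (I w) : PadicAlgCl (e (I w)).q)
  have hC0 : ∀ w, C w ≠ 0 := fun w h ↦ hc0 (I w) (Subtype.ext h)
  have hC2 : ∀ w, C w ^ 2 = (e (I w)).φ x := fun w ↦ congrArg Subtype.val (hc1 (I w))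
  have hC1 : ∀ w, ‖C w - 1‖ < ε / 2 := fun w ↦ hc2 (I w)
  have hbb : ∀ w, ψ w y0 * ψ w (σ y0) = C w ^ 2 := by
    intro w
    rw [← map_mul, hnorm, hψ, hC2]
  -- the parameter `m`
  obtain ⟨m, hm⟩ : ∃ m : ℕ, m ∉ ⋃ w : A, {m : ℕ | (1 - (m : PadicAlgCl (e (I w)).q) * ψ w α) +
      ψ w y0 / C w * (1 + (m : PadicAlgCl (e (I w)).q) * ψ w α) = 0} := by
    refine Set.Finite.exists_notMem (Set.finite_iUnion fun w ↦ ?_)
    refine (bad_subsingleton ?_).finite
    rw [Ne, map_eq_zero]; exact hα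
  rw [Set.mem_iUnion, not_exists] at hm
  set s : F := 1 + (m : F) * α with hs
  have hσs : σ s = 1 - (m : F) * α := by
    rw [hs, map_add, map_one, map_mul, map_natCast, hσα]; ring
  have hσσs : σ (σ s) = s := by
    rw [hσs, map_sub, map_one, map_mul, map_natCast, hσα, hs]; ring
  have hden : ∀ w, ψ w (σ s) + ψ w y0 / C w * ψ w s ≠ 0 := by
    intro w h
    apply hm w
    rw [Set.mem_ofPred_eq]
    rw [hσs, hs, map_sub, map_one, map_mul, map_natCast, map_add, map_one, map_mul,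
      map_natCast] at h
    exact h
  have hloc := fun w ↦ local_cont (hC0 w) (hbb w) (hden w) (half_pos hε)
  choose δ' hδ'0 hδ' using hloc
  obtain ⟨w₀, hw₀⟩ := Finite.exists_min δ'
  obtain ⟨y1, hy1⟩ := exists_approx_family he c (hδ'0 w₀)
  have hkey : ∀ w, ψ w (algebraMap K F y1) ≠ 0 ∧
      ψ w (σ s) + ψ w y0 / ψ w (algebraMap K F y1) * ψ w s ≠ 0 ∧
      ‖ψ w y0 * (ψ w s + ψ w (σ y0) / ψ w (algebraMap K F y1) * ψ w (σ s)) /
        (ψ w (σ s) + ψ w y0 / ψ w (algebraMap K F y1) * ψ w s) - C w‖ < ε / 2 := by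
    intro w
    apply hδ' w
    have h1 := hy1 (I w)
    have h2 : ‖ψ w (algebraMap K F y1) - C w‖ = ‖(e (I w)).toL y1 - c (I w)‖ := by
      rw [hψ]; rfl
    rw [h2]
    exact h1.trans_le (hw₀ w)
  set z : F := s + σ y0 / algebraMap K F y1 * σ s with hz
  have hσz : σ z = σ s + (y0 : F) / algebraMap K F y1 * s := by
    rw [hz, map_add, map_mul, map_div₀, hσσ, hσσs, AlgEquiv.commutes]
  have hσz0 : σ z ≠ 0 := by
    intro h
    apply (hkey w₀).2.1
    rw [← map_div₀, ← map_mul, ← map_add, ← hσz, h, map_zero]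
  have hz0 : z ≠ 0 := by
    intro h
    apply hσz0
    rw [h, map_zero]
  refine ⟨y0 * Units.mk0 z hz0 * (Units.mk0 (σ z) hσz0)⁻¹, ?_, fun w hw ↦ ?_⟩
  · rw [map_mul, map_mul, map_inv]
    have h1 : SUH.nrm K F (Units.mk0 (σ z) hσz0) = SUH.nrm K F (Units.mk0 z hz0) := by
      ext
      exact Algebra.norm_eq_of_algEquiv σ z
    rw [h1, mul_inv_cancel_right]
    exact hy0
  · let w' : A := ⟨w, hw⟩
    apply hδ w'
    refine lt_of_lt_of_le ?_ (hεδ w')
    have h1 : ψ w' (((y0 * Units.mk0 z hz0 * (Units.mk0 (σ z) hσz0)⁻¹ : Fˣ) : F) - 1) =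
        (ψ w' y0 * (ψ w' s + ψ w' (σ y0) / ψ w' (algebraMap K F y1) * ψ w' (σ s)) /
        (ψ w' (σ s) + ψ w' y0 / ψ w' (algebraMap K F y1) * ψ w' s) - C w') + (C w' - 1) := by
      have h2 : ((y0 * Units.mk0 z hz0 * (Units.mk0 (σ z) hσz0)⁻¹ : Fˣ) : F) =
          (y0 : F) * z / σ z := by
        rw [Units.val_mul, Units.val_mul, Units.val_inv_eq_inv_val, Units.val_mk0, Units.val_mk0,
          div_eq_mul_inv]
      rw [h2, map_sub, map_one, map_div₀, map_mul, hσz, hz]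
      simp only [map_add, map_mul, map_div₀]
      ring
    rw [h1]
    refine (norm_add_le _ _).trans_lt ?_
    have h3 := (hkey w').2.2
    have h4 := hC1 w'
    linarith

end Fermat.Agent.CFT2
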