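import Fermat.Agent.CFT2.Dict

/-!
# Quadratic reciprocity over totally complex fields: valuation form

`qr`, `qr2`: the statements `QRStatement`, `QR2Statement`, `CHStatement` of `CFT2/API.lean`.
-/

set_option autoImplicit false
set_option linter.unusedSectionVars false

open NumberField IsDedekindDomain Module Polynomial
open Fermat.Agent.CFT.W Fermat.Agent.CFT.Embed Fermat.Agent.CFT.SUnits
open Fermat.Agent.CFT.NormGrp Fermat.Agent.CFT.First Fermat.Agent.CFT.ChoosePrime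
open Fermat.Agent.CFT.Second (pw mem_pw pow_mem_pw mem_pw_units Aux pls_sum injective_sum PV mem_PV
  PV_le_H relIndex_pw_unit card_pls)
open Fermat.Agent.CFT.HasseNorm (globNorm mem_globNorm exists_family finite_mem)
open Fermat.Agent.CFT
open Fermat.Agent.LT.I8 (exists_aux index_PV index_formula index_le exists_pow_of_local
  second_inequality_aux)

namespace Fermat.Agent.CFT2

variable {K : Type*} [Field K] [NumberField K]

/-- elements close to `1` are squares of elements close to `1` -/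
theorem exists_sq_eq_close (e : LocEmb K) {ε : ℝ} (hε : 0 < ε) :
    ∃ δ : ℝ, 0 < δ ∧ ∀ u : e.L, ‖u - 1‖ < δ → ∃ c : e.L, c ^ 2 = u ∧ ‖c - 1‖ < ε := by
  have hcomp := Local.completeSpace e.q e.L
  have h2 : ((2 : ℕ) : e.L) ≠ 0 := Local.natCast_ne_zero_of_prime e.q e.L Nat.prime_two
  have hpos : 0 < ‖((2 : ℕ) : e.L)‖ := norm_pos_iff.2 h2
  have hc0 : 0 < min (ε / 2) (2⁻¹ * ‖((2 : ℕ) : e.L)‖) := lt_min (by positivity) (by positivity)
  refine ⟨‖((2 : ℕ) : e.L)‖ * min (ε / 2) (2⁻¹ * ‖((2 : ℕ) : e.L)‖), mul_pos hpos hc0,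
    fun u hu ↦ ?_⟩
  obtain ⟨c, hc1, hc⟩ := LT.I8.exists_pow_eq Nat.prime_two h2
    (c := min (ε / 2) (2⁻¹ * ‖((2 : ℕ) : e.L)‖)) (κ := 2⁻¹) hc0.le (by norm_num) (by norm_num)
    (min_le_right _ _) u hu.le
  exact ⟨c, hc, hc1.trans_lt ((min_le_left _ _).trans_lt (by linarith))⟩

/-- small norm implies small valuation -/
theorem exists_valuation_le (e : LocEmb K) (n : ℕ) :
    ∃ δ : ℝ, 0 < δ ∧ ∀ z : K, ‖e.toL z‖ < δ → e.v.valuation K z ≤ WithZero.exp (-(n : ℤ)) := by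
  obtain ⟨π, hπ⟩ := e.v.valuation_exists_uniformizer K
  have hπ0 : π ≠ 0 := by
    rintro rfl
    rw [map_zero] at hπ
    exact WithZero.coe_ne_zero hπ.symm
  have h1 : e.v.valuation K (π ^ n) = WithZero.exp (-(n : ℤ)) := by
    rw [map_pow, hπ, ← WithZero.exp_nsmul]
    congr 1
    simp
  refine ⟨‖e.toL (π ^ n)‖, norm_pos_iff.2 (by rw [Ne, map_eq_zero]; exact pow_ne_zero _ hπ0),
    fun z hz ↦ ?_⟩
  rw [← h1]
  exact (pl_valuation_le_iff e.φ z (π ^ n)).2 hz.le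

theorem exists_min_pos {ι : Type} [Finite ι] (δ : ι → ℝ) (h : ∀ i, 0 < δ i) :
    ∃ ε : ℝ, 0 < ε ∧ ∀ i, ε ≤ δ i := by
  have := Fintype.ofFinite ι
  by_cases hι : IsEmpty ι
  · exact ⟨1, one_pos, fun i ↦ (hι.false i).elim⟩
  rw [not_isEmpty_iff] at hι
  obtain ⟨i₀, -, h0⟩ := Finset.exists_min_image Finset.univ δ Finset.univ_nonempty
  exact ⟨δ i₀, h i₀, fun i ↦ h0 i (Finset.mem_univ i)⟩

theorem exists_close_lt {ι : Type} [Finite ι] (e : ι → LocEmb K) (δ : ι → ℝ)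
    (hδ : ∀ i, 0 < δ i) :
    ∃ n : ℕ, ∀ x : Kˣ, Close (pls e) n x → ∀ i, ‖(e i).toL (x : K) - 1‖ < δ i := by
  have := Fintype.ofFinite ι
  have h1 := fun i ↦ exists_norm_lt (e i) (hδ i)
  choose N hN using h1
  refine ⟨∑ i, N i, fun x hx i ↦ ?_⟩
  have h2 := hN i ((x : K) - 1) ((hx _ (mem_pls e i)).trans (by
    rw [WithZero.exp_le_exp, neg_le_neg_iff]
    exact_mod_cast Finset.single_le_sum (f := N) (fun _ _ ↦ Nat.zero_le _) (Finset.mem_univ i)))
  rwa [map_sub, map_one] at h2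

/-- elements of `K` close to `1` are local squares of elements close to `1`. -/
theorem exists_close_sq {ι : Type} [Finite ι] (e : ι → LocEmb K) {ε : ℝ} (hε : 0 < ε) :
    ∃ n : ℕ, ∀ x : Kˣ, Close (pls e) n x →
      ∀ i, ∃ c : (e i).L, c ^ 2 = (e i).toL (x : K) ∧ ‖c - 1‖ < ε := by
  have h1 := fun i ↦ exists_sq_eq_close (e i) hε
  choose δ hδ0 hδ using h1
  obtain ⟨n, hn⟩ := exists_close_lt e δ hδ0
  exact ⟨n, fun x hx i ↦ hδ i _ (hn x hx i)⟩

theorem toU_mem_N_of_sq (e : LocEmb K) (a : K) {x : Kˣ} {c : e.L} (hc : c ^ 2 = e.toL (x : K)) :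
    e.toU x ∈ e.N 2 a :=
  range_pow_le_normGrp Nat.prime_two ((mem_pw_units two_ne_zero _).2 ⟨c, hc⟩)

variable {F : Type*} [Field F] [NumberField F] [Algebra K F]

theorem chi_of_mem {R : Set (HeightOneSpectrum (𝓞 K))} {v : HeightOneSpectrum (𝓞 K)} (h : v ∈ R) :
    chi K F R v = 1 := if_pos (Or.inl h)

/-- **Quadratic reciprocity.** -/
theorem qr [IsTotallyComplex K] (hd : finrank K F = 2) {R : Set (HeightOneSpectrum (𝓞 K))}
    (hR : R.Finite) (hur : ∀ v ∉ R, Unr K F v) : QRStatement K F R := by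
  obtain ⟨a, α, σ, hD, hα, -⟩ := exists_kummer_two hd
  obtain ⟨m, eR, -, hplsR⟩ := exists_family R hR
  obtain ⟨n, hn⟩ := exists_close_sq eR one_pos
  refine ⟨n, fun x hx ↦ ?_⟩
  obtain ⟨k, e, he, hpls⟩ := exists_family (R ∪ {v : HeightOneSpectrum (𝓞 K) | ord v x ≠ 0})
    (hR.union (finite_ord_ne_zero x))
  have h1 := prod_lsym_eq_one he a x (fun e' he' ↦ by
    have h2 : e'.v ∉ pls e := by
      rintro ⟨i, hi⟩
      exact he' i hi
    rw [hpls, Set.mem_union, not_or, Set.mem_ofPred_eq, not_not] at h2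
    rw [toU_mem_N_iff e' hD hα (hur _ h2.1), h2.2]
    exact Or.inr Even.zero)
  rw [ev_eq_prod he, ← h1]
  · refine Finset.prod_congr rfl fun i _ ↦ ?_
    by_cases hi : (e i).v ∈ R
    · rw [chi_of_mem hi, one_zpow, eq_comm, lsym_eq_one_iff]
      rw [← hplsR] at hi
      obtain ⟨j, hj⟩ := hi
      obtain ⟨c, hc, -⟩ := hn x (by rwa [hplsR]) j
      exact LocEmb.mem_N_of_v_eq (e := eR j) hj Nat.prime_two (toU_mem_N_of_sq _ _ hc)
    · rw [lsym_toU (e i) hD hα hi (hur _ hi), dvs_apply]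
  · intro v hv
    rw [hpls, Set.mem_union, not_or, Set.mem_ofPred_eq, not_not] at hv
    exact hv.2

end Fermat.Agent.CFT2
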