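import Fermat.Agent.CFT2.QR

/-!
# Quadratic reciprocity over totally complex fields: the kernel of the quadratic symbol

`qr2`: the statement `QR2Statement` of `CFT2/API.lean`.
-/

set_option autoImplicit false
set_option linter.unusedSectionVars false

open NumberField IsDedekindDomain Module Polynomial
open Fermat.Agent.CFT.W Fermat.Agent.CFT.Embed Fermat.Agent.CFT.SUnits
open Fermat.Agent.CFT.NormGrp Fermat.Agent.CFT.First Fermat.Agent.CFT.ChoosePrime
open Fermat.Agent.CFT.Second (pw mem_pw pow_mem_pw mem_pw_units Aux pls_sum injective_sum PV mem_PV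
  PV_le_H relIndex_pw_unit card_pls)
open Fermat.Agent.CFT.HasseNorm (globNorm mem_globNorm exists_family finite_mem)
open Fermat.Agent.CFT
open Fermat.Agent.LT.I8 (exists_aux index_PV index_formula index_le exists_pow_of_local
  second_inequality_aux)

namespace Fermat.Agent.CFT2

variable {K : Type*} [Field K] [NumberField K] {F : Type*} [Field F] [NumberField F] [Algebra K F]

/-- elements of the local norm group are of the form `x² - a z²` -/
theorem exists_sub_of_mem_N (e : LocEmb K) {a : Kˣ} {u : (e.L)ˣ} (hu : u ∈ e.N 2 (a : K)) :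
    ∃ x z : e.L, (u : e.L) = x ^ 2 - e.toL (a : K) * z ^ 2 := by
  by_cases h : ∃ c : e.L, c ^ 2 = e.toL (a : K)
  · obtain ⟨c, hc⟩ := h
    have hc0 : c ≠ 0 := by
      rintro rfl
      rw [zero_pow two_ne_zero, eq_comm, map_eq_zero] at hc
      exact a.ne_zero hc
    have h2 : (2 : e.L) ≠ 0 := by
      have := Local.natCast_ne_zero_of_prime e.q e.L Nat.prime_two
      exact_mod_cast this
    refine ⟨(u + 1) / 2, (u - 1) / (2 * c), ?_⟩
    rw [← hc]
    field_simp
    ring
  · push Not at h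
    exact LT.I8.exists_sub_of_mem_normGrp h hu

theorem norm_add_mul {a : Kˣ} {α : F} {σ : F ≃ₐ[K] F}
    (hD : Kummer.Data K F 2 (-1) (a : K) α σ) (x z : K) :
    Algebra.norm K (algebraMap K F x + algebraMap K F z * α) = x ^ 2 - (a : K) * z ^ 2 := by
  apply (algebraMap K F).injective
  rw [← prod_pow_eq_norm hD Nat.prime_two, Finset.prod_range_succ, Finset.prod_range_one,
    pow_zero, pow_one, AlgEquiv.one_apply, map_add, map_mul, AlgEquiv.commutes,
    AlgEquiv.commutes, hD.apply_root, map_neg, map_one, map_sub, map_mul, map_pow, map_pow,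
    ← hD.pow_eq]
  ring

/-- An element which is a local norm at the places of a family is close to a global norm. -/
theorem exists_close_norm {a : Kˣ} {α : F} {σ : F ≃ₐ[K] F}
    (hD : Kummer.Data K F 2 (-1) (a : K) α σ) {ι : Type} [Finite ι] {e : ι → LocEmb K}
    (he : Function.Injective fun i ↦ (e i).v) {y : Kˣ}
    (hy : ∀ i, (e i).toU y ∈ (e i).N 2 (a : K)) (n : ℕ) :
    ∃ t : Fˣ, Close (pls e) n (y * (SUH.nrm K F t)⁻¹) := by
  by_cases hι : IsEmpty ι
  · refine ⟨1, ?_⟩
    rintro v ⟨i, -⟩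
    exact (hι.false i).elim
  rw [not_isEmpty_iff] at hι
  have h1 := fun i ↦ exists_sub_of_mem_N (e i) (hy i)
  choose x z hxz using h1
  have h2 := fun i ↦ exists_valuation_le (e i) n
  choose η hη0 hη using h2
  have h3 : ∀ i, ∃ δ : ℝ, 0 < δ ∧ ∀ s t : (e i).L, ‖s - x i‖ < δ → ‖t - z i‖ < δ →
      ‖(e i).toL (y : K) / (s ^ 2 - (e i).toL (a : K) * t ^ 2) - 1‖ < min (η i) 1 := by
    intro i
    have hc : ContinuousAt (fun p : (e i).L × (e i).L ↦
        (e i).toL (y : K) / (p.1 ^ 2 - (e i).toL (a : K) * p.2 ^ 2)) (x i, z i) := by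
      refine ContinuousAt.div continuousAt_const (by fun_prop) ?_
      change (x i) ^ 2 - (e i).toL (a : K) * (z i) ^ 2 ≠ 0
      rw [← hxz i]
      exact ((e i).toU y).ne_zero
    rw [Metric.continuousAt_iff] at hc
    obtain ⟨δ, hδ, h⟩ := hc (min (η i) 1) (lt_min (hη0 i) one_pos)
    refine ⟨δ, hδ, fun s t hs ht ↦ ?_⟩
    have h4 := @h (s, t) (by
      rw [Prod.dist_eq, dist_eq_norm, dist_eq_norm]
      exact max_lt hs ht)
    rw [dist_eq_norm] at h4
    have h5 : (e i).toL (y : K) / ((x i) ^ 2 - (e i).toL (a : K) * (z i) ^ 2) = 1 := by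
      rw [← hxz i]
      exact div_self ((e i).toU y).ne_zero
    rwa [h5] at h4
  choose δ hδ0 hδ using h3
  obtain ⟨ε, hε0, hε⟩ := exists_min_pos δ hδ0
  obtain ⟨s, hs⟩ := exists_approx_family he x hε0
  obtain ⟨t, ht⟩ := exists_approx_family he z hε0
  have h6 : ∀ i, ‖(e i).toL ((y : K) / (s ^ 2 - (a : K) * t ^ 2) - 1)‖ < min (η i) 1 := by
    intro i
    have := hδ i ((e i).toL s) ((e i).toL t) ((hs i).trans_le (hε i)) ((ht i).trans_le (hε i))
    rwa [← map_pow, ← map_pow, ← map_mul, ← map_sub, ← _root_.map_div₀, ← map_one (e i).toL,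
      ← map_sub] at this
  have h0 : s ^ 2 - (a : K) * t ^ 2 ≠ 0 := by
    intro h0
    have h7 := h6 (Classical.arbitrary ι)
    rw [h0, div_zero, zero_sub, map_neg, map_one, norm_neg, norm_one] at h7
    exact absurd h7 (not_lt.2 (min_le_right _ _))
  have hN := norm_add_mul hD s t
  have hne : algebraMap K F s + algebraMap K F t * α ≠ 0 := by
    intro hne
    rw [hne] at hN
    have hfd : FiniteDimensional K F :=
      FiniteDimensional.of_finrank_pos (by rw [hD.finrank_eq]; norm_num)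
    rw [Algebra.norm_zero] at hN
    exact h0 hN.symm
  refine ⟨Units.mk0 _ hne, ?_⟩
  rintro v ⟨i, rfl⟩
  refine hη i _ ?_
  have h8 : ((y * (SUH.nrm K F (Units.mk0 _ hne))⁻¹ : Kˣ) : K) - 1 =
      (y : K) / (s ^ 2 - (a : K) * t ^ 2) - 1 := by
    rw [Units.val_mul, Units.val_inv_eq_inv_val, ← hN, div_eq_mul_inv]
    rfl
  rw [h8]
  exact (h6 i).trans_le (min_le_left _ _)

theorem exists_ord_eq (v : HeightOneSpectrum (𝓞 K)) (n : ℤ) : ∃ z : Kˣ, ord v z = n := by
  obtain ⟨π, hπ⟩ := v.valuation_exists_uniformizer K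
  have hπ0 : π ≠ 0 := by
    rintro rfl
    rw [map_zero] at hπ
    exact WithZero.coe_ne_zero hπ.symm
  refine ⟨(Units.mk0 π hπ0) ^ n, ?_⟩
  have hP : ord v (Units.mk0 π hπ0) = 1 := by
    rw [ord_eq_iff]; exact hπ
  have : ord v (Units.mk0 π hπ0 ^ n) = n * ord v (Units.mk0 π hπ0) := by
    rw [ord, ord, map_zpow, toAdd_zpow, smul_eq_mul]
    ring
  rw [this, hP, mul_one]

/-- **The kernel of the quadratic symbol.** -/
theorem qr2 [IsTotallyComplex K] (hd : finrank K F = 2) {R : Set (HeightOneSpectrum (𝓞 K))}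
    (hR : R.Finite) (hur : ∀ v ∉ R, Unr K F v) : QR2Statement K F R := by
  classical
  intro n b hb
  obtain ⟨a, α, σ, hD, hα, -⟩ := exists_kummer_two hd
  obtain ⟨m, eR, heR, hplsR⟩ := exists_family R hR
  obtain ⟨k, e, he, hpls⟩ := exists_family (R ∪ b.support) (hR.union b.support.finite_toSet)
  have h1 := fun i ↦ exists_ord_eq (e i).v (b (e i).v)
  choose z hz using h1
  let x : ∀ i, ((e i).L)ˣ := fun i ↦ if (e i).v ∈ R then 1 else (e i).toU (z i)
  have hb0 : ∀ v, v ∉ pls e → b v = 0 := by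
    intro v hv
    rw [hpls, Set.mem_union, not_or, Finset.mem_coe, Finsupp.mem_support_iff, not_not] at hv
    exact hv.2
  have hx : x ∈ globNorm 2 (a : K) e := by
    rw [mem_globNorm_iff he, ← hb, ev_eq_prod he _ _ hb0]
    refine Finset.prod_congr rfl fun i _ ↦ ?_
    by_cases hi : (e i).v ∈ R
    · rw [chi_of_mem hi, one_zpow, lsym_eq_one_iff]
      change (if (e i).v ∈ R then 1 else (e i).toU (z i)) ∈ _
      rw [if_pos hi]
      exact Subgroup.one_mem _
    · change lsym (e i) (a : K) (if (e i).v ∈ R then 1 else (e i).toU (z i)) = _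
      rw [if_neg hi, lsym_toU (e i) hD hα hi (hur _ hi), hz]
  obtain ⟨y, hy1, hy2⟩ := hx
  obtain ⟨t, ht⟩ := exists_close_norm hD heR (y := y) (fun j ↦ by
    have hj : (eR j).v ∈ pls e := by
      rw [hpls, ← hplsR]
      exact Or.inl (mem_pls eR j)
    obtain ⟨i, hi⟩ := hj
    have h2 := hy1 i
    change (e i).toU y / (if (e i).v ∈ R then 1 else (e i).toU (z i)) ∈ _ at h2
    have h3 : (e i).v ∈ R := by
      rw [← hplsR]
      exact ⟨j, hi.symm⟩
    rw [if_pos h3, div_one] at h2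
    exact LocEmb.mem_N_of_v_eq hi Nat.prime_two h2) n
  rw [hplsR] at ht
  refine ⟨_, ht, fun v hv ↦ ?_⟩
  by_cases hs : Split K F v
  · exact Or.inl hs
  right
  -- parity of the norm
  obtain ⟨e', rfl⟩ := LocEmb.exists_locEmb K v
  have h4 : Even (ord e'.v (SUH.nrm K F t)) := by
    have h5 := e'.toU_norm_mem_N hD Nat.prime_two hzeta t
    exact ((toU_mem_N_iff e' hD hα (hur _ hv) _).1 h5).resolve_left hs
  have h6 : Even (ord e'.v y - b e'.v) := by
    by_cases hmem : e'.v ∈ pls e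
    · obtain ⟨i, hi⟩ := hmem
      replace hi : (e i).v = e'.v := hi
      have h2 := hy1 i
      change (e i).toU y / (if (e i).v ∈ R then 1 else (e i).toU (z i)) ∈ _ at h2
      rw [if_neg (by rw [hi]; exact hv), ← _root_.map_div] at h2
      have h3 := ((toU_mem_N_iff (e i) hD hα (hur _ (by rw [hi]; exact hv)) _).1 h2).resolve_left
        (by rw [hi]; exact hs)
      rw [div_eq_mul_inv, ord_mul, ord_inv, hz, ← sub_eq_add_neg, hi] at h3
      exact h3
    · rw [hb0 _ hmem, sub_zero]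
      have h2 := hy2 e' (fun i hi ↦ hmem ⟨i, hi⟩)
      exact ((toU_mem_N_iff e' hD hα (hur _ hv) _).1 h2).resolve_left hs
  rw [ord_mul, ord_inv]
  obtain ⟨c, hc⟩ := h4
  obtain ⟨d, hd⟩ := h6
  exact ⟨d - c + b e'.v, by omega⟩

end Fermat.Agent.CFT2
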