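import Fermat.Agent.CFT2.QR2
import Fermat.Agent.LT.I8.LocPsi

/-!
# The quadratic symbol at a tamely ramified place
-/

set_option autoImplicit false
set_option linter.unusedSectionVars false

open NumberField IsDedekindDomain Module Polynomial
open Fermat.Agent.CFT.W Fermat.Agent.CFT.Embed Fermat.Agent.CFT.SUnits
open Fermat.Agent.CFT.NormGrp Fermat.Agent.CFT.First Fermat.Agent.CFT.ChoosePrime
open Fermat.Agent.CFT.Second (pw mem_pw pow_mem_pw mem_pw_units Aux pls_sum injective_sum PV mem_PV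
  PV_le_H relIndex_pw_unit card_pls)
open Fermat.Agent.CFT.HasseNorm (globNorm mem_globNorm exists_family finite_mem)
open Fermat.Agent.CFT
open Fermat.Agent.LT.I8 (exists_aux index_PV index_formula index_le exists_pow_of_local
  second_inequality_aux exists_near close_iff close_mono)

namespace Fermat.Agent.CFT2

variable {K : Type*} [Field K] [NumberField K] {F : Type*} [Field F] [NumberField F] [Algebra K F]

/-- a global unit at an odd place which is not a local square -/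
theorem exists_global_unit_nonsquare (e : LocEmb K) (hq : 2 ≠ e.q) :
    ∃ u : Kˣ, ord e.v u = 0 ∧ ∀ c : e.L, c ^ 2 ≠ e.toL (u : K) := by
  obtain ⟨u, hu, hns⟩ := exists_unit_nonsquare e hq
  have hu0 : u ≠ 0 := by
    rintro rfl
    rw [norm_zero] at hu
    exact zero_ne_one hu
  obtain ⟨δ, hδ0, hδ⟩ := exists_sq_eq_close e one_pos
  obtain ⟨z, hz⟩ := e.exists_toL_near u (lt_min hδ0 one_pos)
  have h1 : ‖e.toL z / u - 1‖ < min δ 1 := by
    have h2 : e.toL z / u - 1 = -(u - e.toL z) / u := by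
      rw [neg_sub, sub_div, div_self hu0]
    rw [h2, norm_div, norm_neg, hu, div_one]
    exact hz
  have hzn : ‖e.toL z‖ = 1 := by
    have h3 : ‖e.toL z‖ = ‖u‖ := by
      apply Local.norm_eq_of_norm_sub_lt
      rw [hu, norm_sub_rev]
      exact hz.trans_le (min_le_right _ _)
    rw [h3, hu]
  have hz0 : z ≠ 0 := by
    rintro rfl
    rw [map_zero, norm_zero] at hzn
    exact zero_ne_one hzn
  obtain ⟨c, hc, -⟩ := hδ _ (h1.trans_le (min_le_left _ _))
  have hc0 : c ≠ 0 := by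
    rintro rfl
    rw [zero_pow two_ne_zero, eq_comm, div_eq_zero_iff, map_eq_zero] at hc
    exact hc.elim hz0 hu0
  refine ⟨Units.mk0 z hz0, ?_, fun d hd ↦ hns (d / c) ?_⟩
  · rw [ord_eq_iff, neg_zero, WithZero.exp_zero]
    exact (e.valuation_eq_one_iff z).2 hzn
  · have hd' : d ^ 2 = e.toL z := hd
    rw [div_pow, hc, hd']
    have : e.toL z ≠ 0 := by rwa [Ne, map_eq_zero]
    field_simp

/-- At an odd ramified place there is a unit which is not a norm. -/
theorem exists_unit_not_norm {a : Kˣ} {α : F} {σ : F ≃ₐ[K] F}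
    (hD : Kummer.Data K F 2 (-1) (a : K) α σ) (e : LocEmb K) (hq : 2 ≠ e.q)
    (hram : ¬ Unr K F e.v) : ∃ u : Kˣ, ord e.v u = 0 ∧ e.toU u ∉ e.N 2 (a : K) := by
  obtain ⟨u, hu, hns⟩ := exists_global_unit_nonsquare e hq
  refine ⟨u, hu, fun hN ↦ hram ?_⟩
  have h2 : (2 : e.L) ≠ 0 := by
    have := Local.natCast_ne_zero_of_prime e.q e.L Nat.prime_two
    exact_mod_cast this
  have h1 : e.toU a ∈ normGrp e.L 2 ((e.toU u : (e.L)ˣ) : e.L) := normGrp_symm h2 hN
  have hun : ‖((e.toU u : (e.L)ˣ) : e.L)‖ = 1 := by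
    rw [LocEmb.coe_toU, ← e.valuation_eq_one_iff]
    rw [ord_eq_iff, neg_zero, WithZero.exp_zero] at hu
    exact hu
  obtain ⟨c, hc⟩ := LT.I8.exists_norm_eq_of_mem_normGrp e.L hq hun hns h1
  have hc0 : c ≠ 0 := by
    rintro rfl
    rw [zero_pow two_ne_zero, norm_zero, norm_eq_zero] at hc
    exact (e.toU a).ne_zero hc
  obtain ⟨z, hz0, hz⟩ := e.exists_norm_eq hc0
  have h3 : e.v.valuation K (a : K) = (e.v.valuation K z) ^ 2 := by
    rw [← map_pow, e.valuation_eq_iff, map_pow, norm_pow, hz, ← norm_pow, ← hc]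
    rfl
  refine fun w hw ↦ Unram.unramified_of_valuation_eq_pow Nat.prime_two hzeta hD e.v ?_ a.ne_zero z
    h3 w hw
  intro hmem
  exact hq ((e.q_eq_iff Nat.prime_two).2 hmem)

theorem exists_close_sq_one (e : LocEmb K) :
    ∃ n : ℕ, ∀ x : Kˣ, Close {e.v} n x → ∃ c : e.L, c ^ 2 = e.toL (x : K) := by
  obtain ⟨n, hn⟩ := exists_close_sq (fun _ : Unit ↦ e) one_pos
  refine ⟨n, fun x hx ↦ ?_⟩
  obtain ⟨c, hc, -⟩ := hn x (by
    rintro _ ⟨_, rfl⟩
    exact hx _ rfl) ()
  exact ⟨c, hc⟩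

/-- Uniform precision for being a norm at the places of a finite set. -/
theorem exists_close_norm_one (a : K) {T : Set (HeightOneSpectrum (𝓞 K))} (hT : T.Finite) :
    ∃ n : ℕ, ∀ e : LocEmb K, e.v ∈ T → ∀ x : Kˣ, Close {e.v} n x → e.toU x ∈ e.N 2 a := by
  obtain ⟨m, eT, heT, hplsT⟩ := exists_family T hT
  have h1 := fun j ↦ exists_close_sq_one (eT j)
  choose n hn using h1
  refine ⟨∑ j, n j, fun e he x hx ↦ ?_⟩
  rw [← hplsT] at he
  obtain ⟨j, hj⟩ := he
  replace hj : (eT j).v = e.v := hj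
  obtain ⟨c, hc⟩ := hn j x (by
    rw [hj]
    exact close_mono (Finset.single_le_sum (f := n) (fun _ _ ↦ Nat.zero_le _)
      (Finset.mem_univ j)) hx)
  exact LocEmb.mem_N_of_v_eq hj Nat.prime_two (toU_mem_N_of_sq _ _ hc)

/-- **The symbol at a tamely ramified place**: there is a unit, deeply congruent to `1` at the other
bad places, on whose divisor the quadratic symbol is `-1`. -/
theorem exists_chi_neg [IsTotallyComplex K] (hd : finrank K F = 2)
    {T : Set (HeightOneSpectrum (𝓞 K))} (hT : T.Finite) (hur : ∀ v ∉ T, Unr K F v)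
    {P : HeightOneSpectrum (𝓞 K)} (hP : P ∈ T) (h2 : (2 : 𝓞 K) ∉ P.asIdeal)
    (hram : ¬ Unr K F P) (n : ℕ) :
    ∃ x : Kˣ, ord P x = 0 ∧ (∀ Q ∈ T, Q ≠ P → Close {Q} n x) ∧
      ev (chi K F T) (dvs (Additive.ofMul x)) = -1 := by
  classical
  obtain ⟨a, α, σ, hD, hα, ha⟩ := exists_kummer_two hd
  obtain ⟨e0, rfl⟩ := LocEmb.exists_locEmb K P
  have hq : 2 ≠ e0.q := by
    intro h
    have := (e0.q_eq_iff Nat.prime_two).1 h
    exact h2 (by exact_mod_cast this)
  obtain ⟨u, hu, huN⟩ := exists_unit_not_norm hD e0 hq hram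
  obtain ⟨n1, hn1⟩ := exists_close_norm_one (a : K) hT
  set N := max n (max n1 1) with hN
  have hN1 : 1 ≤ N := (le_max_right _ _).trans (le_max_right _ _)
  have hNn : n ≤ N := le_max_left _ _
  have hNn1 : n1 ≤ N := (le_max_left _ _).trans (le_max_right _ _)
  obtain ⟨x, hx1, hx2⟩ := exists_near hT N e0.v u
  have hord : ord e0.v x = 0 := by
    have h3 : ord e0.v (x * u⁻¹) = 0 :=
      LT.I8.ord_eq_zero_of_close hN1 hx1 (Set.mem_singleton _)
    rw [ord_mul, ord_inv, hu] at h3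
    omega
  refine ⟨x, hord, fun Q hQ hQP ↦ close_mono hNn (hx2 Q hQ hQP), ?_⟩
  -- the symbol at `P`
  have hxP : e0.toU x ∉ e0.N 2 (a : K) := by
    intro h
    have h3 := hn1 e0 hP (x * u⁻¹) (close_mono hNn1 hx1)
    apply huN
    have h4 : e0.toU u = (e0.toU (x * u⁻¹))⁻¹ * e0.toU x := by
      rw [map_mul, map_inv, mul_inv, inv_inv, mul_comm (e0.toU x)⁻¹, inv_mul_cancel_right]
    rw [h4]
    exact mul_mem (inv_mem h3) h
  obtain ⟨k, e, he, hpls⟩ := exists_family (T ∪ {v : HeightOneSpectrum (𝓞 K) | ord v x ≠ 0})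
    (hT.union (finite_ord_ne_zero x))
  have h1 := prod_lsym_eq_one he a x (fun e' he' ↦ by
    have h2 : e'.v ∉ pls e := by
      rintro ⟨i, hi⟩
      exact he' i hi
    rw [hpls, Set.mem_union, not_or, Set.mem_ofPred_eq, not_not] at h2
    rw [toU_mem_N_iff e' hD hα (hur _ h2.1), h2.2]
    exact Or.inr Even.zero)
  have hPe : e0.v ∈ pls e := by
    rw [hpls]
    exact Or.inl hP
  obtain ⟨i0, hi0⟩ := hPe
  replace hi0 : (e i0).v = e0.v := hi0
  rw [← Finset.prod_erase_mul _ _ (Finset.mem_univ i0)] at h1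
  have h3 : lsym (e i0) (a : K) ((e i0).toU x) = -1 := by
    refine (Int.units_eq_one_or _).resolve_left fun h4 ↦ ?_
    rw [lsym_eq_one_iff] at h4
    exact hxP (LocEmb.mem_N_of_v_eq hi0 Nat.prime_two h4)
  rw [h3, mul_neg, mul_one, neg_eq_iff_eq_neg] at h1
  rw [ev_eq_prod he, ← Finset.prod_erase_mul _ _ (Finset.mem_univ i0), ← h1]
  · rw [hi0, chi_of_mem hP, one_zpow, mul_one]
    refine Finset.prod_congr rfl fun i hi ↦ ?_
    have hne : (e i).v ≠ e0.v := by
      intro h4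
      exact (Finset.mem_erase.1 hi).1 (he (h4.trans hi0.symm))
    by_cases hiT : (e i).v ∈ T
    · rw [chi_of_mem hiT, one_zpow, eq_comm, lsym_eq_one_iff]
      exact hn1 (e i) hiT x (close_mono hNn1 (hx2 _ hiT hne))
    · rw [lsym_toU (e i) hD hα hiT (hur _ hiT), dvs_apply]
  · intro v hv
    rw [hpls, Set.mem_union, not_or, Set.mem_ofPred_eq, not_not] at hv
    exact hv.2

end Fermat.Agent.CFT2
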