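import Fermat.Agent.CFT2.API
import Fermat.Agent.LT.I8.Hasse2

/-!
# Quadratic reciprocity over totally complex fields, I

`S = pls e` is a big finite set of places of the totally complex field `K`, `a` an `S`-unit,
`J = ∏_{v ∈ S} K_vˣ`. The group `globNorm 2 a e` of elements of `J` which are global elements up
to norms from `K(√a)` has index two (`globNorm_ne_top`, `Big.index_le`), and the place `t ∉ S`
is in it iff `a` is a square at `t` (`diag_mem_globNorm_iff`).
-/

set_option autoImplicit false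
set_option linter.unusedSectionVars false

open NumberField IsDedekindDomain Module Polynomial
open Fermat.Agent.CFT.W Fermat.Agent.CFT.Embed Fermat.Agent.CFT.SUnits
open Fermat.Agent.CFT.NormGrp Fermat.Agent.CFT.First Fermat.Agent.CFT.ChoosePrime
open Fermat.Agent.CFT.Second (pw mem_pw pow_mem_pw mem_pw_units Aux pls_sum injective_sum PV mem_PV
  PV_le_H relIndex_pw_unit card_pls)
open Fermat.Agent.CFT.HasseNorm (globNorm mem_globNorm exists_family finite_mem)
open Fermat.Agent.CFT
open Fermat.Agent.LT.I8 (exists_aux index_PV index_formula index_le exists_pow_of_local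
  second_inequality_aux)

namespace Fermat.Agent.CFT2

variable {K : Type*} [Field K] [NumberField K]

/-- a family of different places, containing those above `2`, with trivial class group. -/
structure Big {ι : Type} (e : ι → LocEmb K) : Prop where
  inj : Function.Injective fun i ↦ (e i).v
  cls : ClassTrivial (pls e)
  two : ∀ v : HeightOneSpectrum (𝓞 K), ((2 : ℕ) : 𝓞 K) ∈ v.asIdeal → v ∈ pls e

theorem grp_aux1 {G : Type*} [CommGroup G] (w y x c : G) :
    (w * y)⁻¹ * x = (y / c)⁻¹ * (c⁻¹ * (x / w)) := by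
  have h : ∀ w y x c : Additive G, -(w + y) + x = -(y - c) + (-c + (x - w)) := by
    intros; abel
  exact h w y x c

theorem grp_aux2 {G : Type*} [CommGroup G] (w y x : G) :
    (w * y)⁻¹ * x = y⁻¹ * (w⁻¹ * x) := by
  rw [mul_inv, mul_comm w⁻¹, mul_assoc]

theorem eq_of_index_le_two {G : Type*} [Group G] {A B : Subgroup G} (hle : A ≤ B)
    (hA : A.index ≤ 2) (hA0 : A.index ≠ 0) (hB : B ≠ ⊤) : A = B := by
  have h1 := Subgroup.relIndex_mul_index hle
  have hB1 : B.index ≠ 1 := by rwa [Ne, Subgroup.index_eq_one]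
  have hB0 : B.index ≠ 0 := by
    intro h0
    rw [h0, mul_zero] at h1
    exact hA0 h1.symm
  have hr0 : A.relIndex B ≠ 0 := by
    intro h0
    rw [h0, zero_mul] at h1
    exact hA0 h1.symm
  have h2 : A.relIndex B = 1 := by
    have h3 : 2 ≤ B.index := by omega
    by_contra h4
    have h5 : 2 ≤ A.relIndex B := by omega
    have := Nat.mul_le_mul h5 h3
    omega
  exact le_antisymm hle (Subgroup.relIndex_eq_one.1 h2)

theorem int_units_zpow_eq_one_iff (n : ℤ) : ((-1 : ℤˣ) ^ n = 1) ↔ Even n := by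
  rcases Int.even_or_odd n with h | h
  · simp [h, h.neg_one_zpow]
  · rw [h.neg_one_zpow]
    simp only [Int.not_even_iff_odd.2 h, iff_false]
    decide

theorem hzeta : IsPrimitiveRoot (-1 : K) 2 := IsPrimitiveRoot.neg_one 0 (by decide)

section
variable [IsTotallyComplex K] {ι : Type} [Fintype ι] {e : ι → LocEmb K}

theorem Big.ne_q (hB : Big e) (t : LocEmb K) (ht : t.v ∉ pls e) : 2 ≠ t.q :=
  fun h ↦ ht (hB.two _ ((t.q_eq_iff Nat.prime_two).1 h))

/-- (M1) -/
theorem globNorm_ne_top (hB : Big e) {a : Kˣ} (ha : a ∈ (pls e).unit K)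
    (hns : ∀ c : K, c ^ 2 ≠ a) : globNorm 2 (a : K) e ≠ ⊤ := by
  intro htop
  have h0 := (index_PV Nat.prime_two (K := K) hzeta hB.inj).2
  have : (PV 2 e).FiniteIndex := ⟨h0⟩
  have hfin : Finite ((∀ i, ((e i).L)ˣ) ⧸ PV 2 e) := inferInstance
  have h1 : ∀ c : (∀ i, ((e i).L)ˣ) ⧸ PV 2 e, ∃ y : Kˣ,
      (∀ i, (e i).toU y / c.out i ∈ (e i).N 2 (a : K)) ∧
      ∀ e' : LocEmb K, (∀ i, (e i).v ≠ e'.v) → e'.toU y ∈ e'.N 2 (a : K) := by
    intro c
    have : c.out ∈ globNorm 2 (a : K) e := by rw [htop]; exact Subgroup.mem_top _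
    exact this
  choose y hy1 hy2 using h1
  -- the support of the `y c`
  obtain ⟨n, e₁, he₁, hpls₁⟩ := exists_family
    ((⋃ c, {v : HeightOneSpectrum (𝓞 K) | v.valuation K (y c : K) ≠ 1}) \ pls e)
    ((Set.finite_iUnion fun c ↦ ChoosePrime.finite_valuation_ne_one (y c)).subset
      Set.sdiff_subset)
  have hdisj : ∀ j, (e₁ j).v ∉ pls e := by
    intro j
    have h1 : (e₁ j).v ∈ pls e₁ := mem_pls e₁ j
    rw [hpls₁] at h1
    exact h1.2
  have hinj := injective_sum hB.inj he₁ hdisj
  have hpls := pls_sum e e₁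
  have hyu : ∀ c, y c ∈ (pls e ∪ pls e₁).unit K := by
    intro c v hv
    by_contra hne
    apply hv
    by_cases hve : v ∈ pls e
    · exact Or.inl hve
    · right
      rw [hpls₁]
      exact ⟨Set.mem_iUnion.2 ⟨c, hne⟩, hve⟩
  -- the extension
  have hirr : Fact (Irreducible (X ^ 2 - C (a : K) : K[X])) :=
    ⟨X_pow_sub_C_irreducible_of_prime Nat.prime_two hns⟩
  let F := AdjoinRoot (X ^ 2 - C (a : K) : K[X])
  have hfr : finrank K F = 2 := Kummer.finrank_adjoinRoot Nat.prime_two
  have hfd : FiniteDimensional K F := FiniteDimensional.of_finrank_pos (by rw [hfr]; norm_num)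
  have hchar : CharZero F := charZero_of_injective_algebraMap (algebraMap K F).injective
  have hNF : NumberField F := by
    have : FiniteDimensional ℚ F := FiniteDimensional.trans ℚ K F
    exact { to_charZero := hchar, to_finiteDimensional := this }
  obtain ⟨σ, hD⟩ := Kummer.exists_data Nat.prime_two hzeta hns
    (Kummer.root_pow (p := 2) (a := (a : K))) hfr
  have hα : (AdjoinRoot.root (X ^ 2 - C (a : K) : K[X]) : F) ≠ 0 := by
    intro h0
    have h1 := hD.pow_eq
    rw [h0, zero_pow two_ne_zero, eq_comm, map_eq_zero] at h1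
    exact a.ne_zero h1
  have h1 := index_formula (Sum.elim e e₁) hinj hD Nat.prime_two hzeta hα
    (hB.cls.mono (by rw [hpls]; exact Set.subset_union_left))
    (fun v hv ↦ by rw [hpls]; exact Or.inl (hB.two v hv))
    (fun v hv ↦ ha v (fun h ↦ hv (by rw [hpls]; exact Or.inl h)))
  have h2 : ((pls (Sum.elim e e₁)).unit K).map (diag (Sum.elim e e₁)) ⊔
      H (Sum.elim e e₁) 2 (a : K) = ⊤ := by
    rw [eq_top_iff]
    intro x _
    -- make the components at `e₁` units
    let xr : ∀ j, ((e₁ j).L)ˣ := fun j ↦ x (Sum.inr j)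
    have h3 : ∀ j, ∃ z : Kˣ, ‖(e₁ j).toL (z : K)‖ = ‖(xr j : (e₁ j).L)‖ := by
      intro j
      obtain ⟨z, hz0, hz⟩ := (e₁ j).exists_norm_eq (xr j).ne_zero
      exact ⟨Units.mk0 z hz0, hz⟩
    choose z hz using h3
    let m : HeightOneSpectrum (𝓞 K) →₀ ℤ := Finsupp.embDomain ⟨fun j ↦ (e₁ j).v, he₁⟩
      (Finsupp.equivFunOnFinite.symm fun j ↦
        Multiplicative.toAdd ((e₁ j).v.valuationOfNeZero (z j)))
    have hm : ∀ j, m (e₁ j).v = Multiplicative.toAdd ((e₁ j).v.valuationOfNeZero (z j)) := by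
      intro j
      exact Finsupp.embDomain_apply_self ⟨fun j ↦ (e₁ j).v, he₁⟩ (Finsupp.equivFunOnFinite.symm fun j ↦
        Multiplicative.toAdd ((e₁ j).v.valuationOfNeZero (z j))) j
    have hm' : ∀ v, v ∉ pls e₁ → m v = 0 := fun v hv ↦
      Finsupp.embDomain_of_notMem_range _ _ _ hv
    obtain ⟨w, hw⟩ := hB.cls m
    have hwE : w ∈ (pls e ∪ pls e₁).unit K := by
      intro v hv
      rw [Set.mem_union, not_or] at hv
      rw [← valuationOfNeZero_eq_one_iff, hw v hv.1, hm' v hv.2]
      rfl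
    have hwn : ∀ j, ‖(e₁ j).toL (w : K)‖ = ‖(xr j : (e₁ j).L)‖ := by
      intro j
      rw [← hz, ← (e₁ j).valuation_eq_iff, ← HeightOneSpectrum.valuationOfNeZero_eq,
        ← HeightOneSpectrum.valuationOfNeZero_eq, hw _ (hdisj j), hm]
      rfl
    -- the components at `e`
    let xl : ∀ i, ((e i).L)ˣ := fun i ↦ x (Sum.inl i)
    let x' : ∀ i, ((e i).L)ˣ := fun i ↦ xl i / (e i).toU w
    let c : (∀ i, ((e i).L)ˣ) ⧸ PV 2 e := QuotientGroup.mk x'
    have hc : (c.out)⁻¹ * x' ∈ PV 2 e := by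
      rw [← QuotientGroup.eq, QuotientGroup.out_eq']
    have h4 : x = diag (Sum.elim e e₁) (w * y c) * ((diag (Sum.elim e e₁) (w * y c))⁻¹ * x) := by
      rw [mul_inv_cancel_left]
    rw [h4]
    refine Subgroup.mul_mem_sup ⟨w * y c, by rw [hpls]; exact mul_mem hwE (hyu c), rfl⟩ ?_
    rw [mem_H]
    rintro (i | j)
    · have h5 : (c.out i)⁻¹ * x' i ∈ (e i).N 2 (a : K) :=
        range_pow_le_normGrp Nat.prime_two ((mem_PV _).1 hc i)
      have h6 := hy1 c i
      let xi : ((e i).L)ˣ := xl i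
      have h7 : ((e i).toU (w * y c))⁻¹ * xi ∈ (e i).N 2 (a : K) := by
        have h8 : ((e i).toU (w * y c))⁻¹ * xi = ((e i).toU (y c) / c.out i)⁻¹ *
            ((c.out i)⁻¹ * x' i) := by
          rw [map_mul]
          exact grp_aux1 _ _ _ _
        rw [h8]
        exact mul_mem (inv_mem h6) h5
      exact h7
    · let xj : ((e₁ j).L)ˣ := xr j
      have h5 : (e₁ j).toU (y c) ∈ (e₁ j).N 2 (a : K) :=
        hy2 c (e₁ j) (fun i hi ↦ hdisj j ⟨i, hi⟩)
      have h6 : ((e₁ j).toU w)⁻¹ * xj ∈ (e₁ j).N 2 (a : K) := by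
        apply LT.I8.LocEmb.unit_mem_N (e₁ j) Nat.prime_two (hB.ne_q _ (hdisj j)) hzeta
          (ha _ (hdisj j))
        rw [Units.val_mul, norm_mul, Units.val_inv_eq_inv_val, norm_inv, LocEmb.coe_toU, hwn]
        exact inv_mul_cancel₀ (norm_ne_zero_iff.2 xj.ne_zero)
      have h7 : ((e₁ j).toU (w * y c))⁻¹ * xj ∈ (e₁ j).N 2 (a : K) := by
        have h8 : ((e₁ j).toU (w * y c))⁻¹ * xj = ((e₁ j).toU (y c))⁻¹ *
            (((e₁ j).toU w)⁻¹ * xj) := by
          rw [map_mul]
          exact grp_aux2 _ _ _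
        rw [h8]
        exact mul_mem (inv_mem h5) h6
      exact h7
  rw [h2, Subgroup.index_top] at h1
  exact absurd (Nat.dvd_one.1 ⟨_, h1.1⟩) (by norm_num)

theorem le_globNorm (hB : Big e) {a : Kˣ} (ha : a ∈ (pls e).unit K)
    {κ : Type} {T : κ → LocEmb K} {B : Set (HeightOneSpectrum (𝓞 K))}
    (hT : Aux 2 (a : K) ((pls e).unit K) B T) :
    ((pls e ∪ pls T).unit K).map (diag e) ⊔ PV 2 e ≤ globNorm 2 (a : K) e := by
  refine sup_le ?_ ?_
  · rintro _ ⟨y, hy, rfl⟩
    refine ⟨y, fun i ↦ ?_, fun e' he' ↦ ?_⟩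
    · rw [diag_apply, div_self']
      exact Subgroup.one_mem _
    · have he'S : e'.v ∉ pls e := by
        rintro ⟨i, hi⟩
        exact he' i hi
      have hpq : 2 ≠ e'.q := hB.ne_q _ he'S
      by_cases h : e'.v ∈ pls T
      · obtain ⟨j, hj⟩ := h
        have h2 : IsPowMod e'.v 2 (a : K) := by
          have h3 : (T j).v = e'.v := hj
          rw [← h3]
          exact hT.isPow j
        rw [LocEmb.N, normGrp_eq_top ((LT.I8.LocEmb.isPow_iff e' Nat.prime_two hpq (ha _ he'S)).2 h2)]
        exact Subgroup.mem_top _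
      · exact LT.I8.LocEmb.toU_mem_N_of_unit e' Nat.prime_two hpq hzeta (ha _ he'S) y (hy _ (by
          rw [Set.mem_union, not_or]; exact ⟨he'S, h⟩))
  · intro x hx
    rw [mem_PV] at hx
    refine ⟨1, fun i ↦ ?_, fun e' _ ↦ by rw [map_one]; exact Subgroup.one_mem _⟩
    rw [map_one, one_div]
    exact inv_mem (range_pow_le_normGrp Nat.prime_two (hx i))

/-- (M2) -/
theorem globNorm_eq (hB : Big e) {a : Kˣ} (ha : a ∈ (pls e).unit K)
    (hns : ∀ c : K, c ^ 2 ≠ a) {κ : Type} [Fintype κ] {T : κ → LocEmb K}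
    {B : Set (HeightOneSpectrum (𝓞 K))} (hSB : pls e ⊆ B)
    (hT : Aux 2 (a : K) ((pls e).unit K) B T)
    (hκ : Fintype.card κ = Fintype.card ι + NumberField.Units.rank K) :
    globNorm 2 (a : K) e = ((pls e ∪ pls T).unit K).map (diag e) ⊔ PV 2 e := by
  obtain ⟨h1, h0⟩ := index_le Nat.prime_two hzeta hB.inj hB.cls hB.two hSB hT hκ
  exact (eq_of_index_le_two (le_globNorm hB ha hT) h1 h0
    (globNorm_ne_top hB ha hns)).symm

theorem exists_aux₂ (hB : Big e) (a : Kˣ) {B : Set (HeightOneSpectrum (𝓞 K))} (hBf : B.Finite)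
    (hSB : pls e ⊆ B) :
    ∃ (κ : Type) (_ : Fintype κ) (T : κ → LocEmb K),
      Fintype.card κ = Fintype.card ι + NumberField.Units.rank K ∧
      Aux 2 (a : K) ((pls e).unit K) B T := by
  refine exists_aux Nat.prime_two hzeta (relIndex_pw_unit Nat.prime_two hzeta (pls e)) hBf
    (fun v hv ↦ hSB (hB.two v hv)) (fun x hx v hv ↦ hx v (fun h ↦ hv (hSB h))) _ ?_
  rw [card_pls hB.inj, Nat.card_eq_fintype_card]
  exact Nat.lt_succ_self _

/-- adding a place where `a` is not a square -/
theorem aux_option (hB : Big e) {a : Kˣ} (ha : a ∈ (pls e).unit K) {κ : Type}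
    {T : κ → LocEmb K} {B : Set (HeightOneSpectrum (𝓞 K))} (hSB : pls e ⊆ B)
    (hT : Aux 2 (a : K) ((pls e).unit K) B T) (t : LocEmb K) (ht : t.v ∉ B)
    (htT : ∀ j, (T j).v ≠ t.v) (hta : ¬ IsPowMod t.v 2 (a : K)) :
    Aux 2 (1 : K) ((pls e).unit K) B (fun o : Option κ ↦ o.elim t T) := by
  have hpt : 2 ≠ t.q := hB.ne_q _ (fun h ↦ ht (hSB h))
  have hpq : ∀ j, 2 ≠ (T j).q := fun j ↦ hB.ne_q _ (fun h ↦ hT.not_mem j (hSB h))
  have hat : t.v.valuation K (a : K) = 1 := ha _ (fun h ↦ ht (hSB h))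
  refine ⟨?_, ?_, ?_, ?_⟩
  · rintro (_ | i) (_ | j) h
    · rfl
    · exact absurd h.symm (htT j)
    · exact absurd h (htT i)
    · exact congrArg some (hT.inj h)
  · rintro (_ | j)
    · exact ht
    · exact hT.not_mem j
  · rintro (_ | j)
    · exact ⟨1, by simp⟩
    · exact ⟨1, by simp⟩
  · intro u hu
    obtain ⟨x, hxE, hx⟩ := hT.surj (fun j ↦ u (some j)) (fun j ↦ hu (some j))
    have hx1 : ‖t.toL (x : K)‖ = 1 :=
      (t.valuation_eq_one_iff _).1 (hxE _ (fun h ↦ ht (hSB h)))
    have hx0 : t.toL (x : K) ≠ 0 := by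
      rw [Ne, map_eq_zero]; exact x.ne_zero
    let u0 : t.L := u none
    have hu0 : ‖u0‖ = 1 := hu none
    obtain ⟨i, c, hic⟩ := LT.I8.LocEmb.unit_eq_pow_mul t Nat.prime_two hpt hzeta hat hta
      (u := u0 / t.toL (x : K)) (by rw [norm_div, hu0, hx1, div_one])
    refine ⟨x * a ^ i, mul_mem hxE (pow_mem ha i), ?_⟩
    rintro (_ | j)
    · have h1 : u0 = t.toL ((x * a ^ i : Kˣ) : K) * c ^ 2 := by
        rw [div_eq_iff hx0] at hic
        rw [hic]
        simp only [Units.val_mul, Units.val_pow_eq_pow_val, map_mul, map_pow]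
        ring
      exact ⟨c, h1⟩
    · obtain ⟨d, hd⟩ := hx j
      obtain ⟨g, hg⟩ := (LT.I8.LocEmb.isPow_iff (T j) Nat.prime_two (hpq j)
        (ha _ (fun h ↦ hT.not_mem j (hSB h)))).2 (hT.isPow j)
      have key : ∀ w : (T j).L, w = (T j).toL (x : K) * d ^ 2 →
          w = (T j).toL ((x * a ^ i : Kˣ) : K) * (d * (g ^ i)⁻¹) ^ 2 := by
        rintro w rfl
        have hg0 : g ≠ 0 := by
          rintro rfl
          rw [zero_pow two_ne_zero, eq_comm, map_eq_zero] at hg
          exact a.ne_zero hg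
        simp only [Units.val_mul, Units.val_pow_eq_pow_val, map_mul, map_pow, ← hg]
        rw [mul_pow, inv_pow, pow_right_comm g i 2, mul_assoc,
          mul_left_comm ((g ^ 2) ^ i), mul_inv_cancel₀
          (pow_ne_zero i (pow_ne_zero 2 hg0)), mul_one]
      exact ⟨_, key _ hd⟩

/-- (M3) -/
theorem diag_mem_globNorm_iff (hB : Big e) {a : Kˣ} (ha : a ∈ (pls e).unit K)
    (t : LocEmb K) (ht : t.v ∉ pls e) {x : Kˣ} (hx : x ∈ (pls e ∪ {t.v}).unit K)
    (hxt : Odd (ord t.v x)) :
    diag e x ∈ globNorm 2 (a : K) e ↔ IsPowMod t.v 2 (a : K) := by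
  constructor
  · intro hmem
    by_contra hta
    have hns : ∀ c : K, c ^ 2 ≠ a := by
      intro c hc
      exact hta ⟨c, by rw [hc, sub_self, map_zero]; exact zero_lt_one⟩
    obtain ⟨κ, _, T, hκ, hT⟩ := exists_aux₂ hB a (B := pls e ∪ {t.v})
      ((Set.toFinite _).union (Set.finite_singleton _)) Set.subset_union_left
    rw [globNorm_eq hB ha hns Set.subset_union_left hT hκ, Subgroup.mem_sup] at hmem
    obtain ⟨_, ⟨y, hy, rfl⟩, z, hz, hyz⟩ := hmem
    rw [mem_PV] at hz
    have htT : ∀ j, (T j).v ≠ t.v := fun j h ↦ hT.not_mem j (Or.inr h)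
    have hTe : ∀ j, (T j).v ∉ pls e := fun j h ↦ hT.not_mem j (Or.inl h)
    have hT1 : Aux 2 (a : K) ((pls e).unit K) (pls e) T :=
      ⟨hT.inj, hTe, hT.isPow, hT.surj⟩
    have hT2 := aux_option hB ha le_rfl hT1 t ht htT hta
    have hplsT : pls (fun o : Option κ ↦ o.elim t T) = pls T ∪ {t.v} := by
      ext v
      constructor
      · rintro ⟨_ | j, rfl⟩
        · exact Or.inr rfl
        · exact Or.inl ⟨j, rfl⟩
      · rintro (⟨j, rfl⟩ | rfl)
        · exact ⟨some j, rfl⟩
        · exact ⟨none, rfl⟩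
    obtain ⟨c, hc⟩ := exists_pow_of_local Nat.prime_two hzeta hB.inj hB.cls hB.two le_rfl hT2
      (b := x / y) (by
        rw [hplsT]
        refine div_mem ?_ ?_
        · exact fun v hv ↦ hx v (fun h ↦ hv (h.elim Or.inl (fun h ↦ Or.inr (Or.inr h))))
        · exact fun v hv ↦ hy v (fun h ↦ hv (h.elim Or.inl (fun h ↦ Or.inr (Or.inl h)))))
      (fun i ↦ by
        obtain ⟨c, hc⟩ := (mem_pw_units two_ne_zero _).1 (hz i)
        refine ⟨c, ?_⟩
        have h1 := congrFun hyz i
        have h2 : (e i).toU y * z i = (e i).toU x := h1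
        have h3 : (e i).toU (x / y) = z i := by
          rw [_root_.map_div, ← h2, mul_div_cancel_left]
        rw [hc, ← h3]
        rfl)
    -- contradiction at `t`
    have hc0 : c ≠ 0 := by
      rintro rfl
      rw [zero_pow two_ne_zero] at hc
      exact (x / y).ne_zero hc.symm
    have h4 : (Units.mk0 c hc0) ^ 2 = x / y := Units.ext hc
    have h5 := congrArg (ord t.v) h4
    have hy0 : ord t.v y = 0 := by
      rw [ord_eq_iff, neg_zero, WithZero.exp_zero]
      refine hy _ ?_
      rintro (h | ⟨j, hj⟩)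
      · exact ht h
      · exact htT j hj
    rw [ord_pow, div_eq_mul_inv, ord_mul, ord_inv, hy0, neg_zero, add_zero] at h5
    rw [← h5] at hxt
    exact (Int.not_even_iff_odd.2 hxt) ⟨ord t.v (Units.mk0 c hc0), by push_cast; ring⟩
  · intro hta
    refine ⟨x, fun i ↦ ?_, fun e' he' ↦ ?_⟩
    · rw [diag_apply, div_self']
      exact Subgroup.one_mem _
    · have he'S : e'.v ∉ pls e := by
        rintro ⟨i, hi⟩
        exact he' i hi
      have hpq : 2 ≠ e'.q := hB.ne_q _ he'S
      by_cases h : e'.v = t.v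
      · rw [← h] at hta
        rw [LocEmb.N, normGrp_eq_top ((LT.I8.LocEmb.isPow_iff e' Nat.prime_two hpq (ha _ he'S)).2 hta)]
        exact Subgroup.mem_top _
      · exact LT.I8.LocEmb.toU_mem_N_of_unit e' Nat.prime_two hpq hzeta (ha _ he'S) x (hx _ (by
          rw [Set.mem_union, not_or]; exact ⟨he'S, h⟩))

end

section sign

variable {J : Type*} [Group J] (G : Subgroup J) (h : G.index ≤ 2 ∧ G.index ≠ 0)

open Classical in
/-- the sign character of a subgroup of index `≤ 2` -/
noncomputable def sg : J →* ℤˣ where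
  toFun x := if x ∈ G then 1 else -1
  map_one' := if_pos G.one_mem
  map_mul' x y := by
    have h1 : G.index = 1 ∨ G.index = 2 := by omega
    rcases h1 with h1 | h1
    · rw [Subgroup.index_eq_one] at h1
      subst h1
      simp
    · have := Subgroup.mul_mem_iff_of_index_two h1 (a := x) (b := y)
      by_cases hx : x ∈ G <;> by_cases hy : y ∈ G <;> simp [hx, hy, this]

theorem sg_eq_one_iff (x : J) : sg G h x = 1 ↔ x ∈ G := by
  classical
  change (if x ∈ G then (1 : ℤˣ) else -1) = 1 ↔ _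
  by_cases hx : x ∈ G
  · simp [hx]
  · simp only [hx, if_false, iff_false]
    decide

end sign

section
variable [IsTotallyComplex K] {ι : Type} [Fintype ι] {e : ι → LocEmb K}

open Classical in
/-- the quadratic symbol of `K(√a)` outside `pls e` -/
noncomputable def chiS (e : ι → LocEmb K) (a : K) (v : HeightOneSpectrum (𝓞 K)) : ℤˣ :=
  if v ∈ pls e ∨ IsPowMod v 2 a then 1 else -1

theorem Big.index_le (hB : Big e) {a : Kˣ} (ha : a ∈ (pls e).unit K) :
    (globNorm 2 (a : K) e).index ≤ 2 ∧ (globNorm 2 (a : K) e).index ≠ 0 :=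
  second_inequality_aux Nat.prime_two hzeta hB.inj hB.cls hB.two ha

/-- (M4) -/
theorem sg_diag (hB : Big e) {a : Kˣ} (ha : a ∈ (pls e).unit K) (y : Kˣ) :
    sg _ (hB.index_le ha) (diag e y) = ev (chiS e (a : K)) (dvs (Additive.ofMul y)) := by
  classical
  have key : ∀ (D : HeightOneSpectrum (𝓞 K) →₀ ℤ) (y : Kˣ), (∀ v ∉ pls e, ord v y = D v) →
      sg _ (hB.index_le ha) (diag e y) = ev (chiS e (a : K)) D := by
    intro D
    induction D using Finsupp.induction with
    | zero =>
      intro y hy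
      rw [ev_zero, sg_eq_one_iff]
      refine ⟨y, fun i ↦ ?_, fun e' he' ↦ ?_⟩
      · rw [diag_apply, div_self']
        exact Subgroup.one_mem _
      · have he'S : e'.v ∉ pls e := by
          rintro ⟨i, hi⟩
          exact he' i hi
        refine LT.I8.LocEmb.toU_mem_N_of_unit e' Nat.prime_two (hB.ne_q _ he'S) hzeta
          (ha _ he'S) y ?_
        have h1 := hy _ he'S
        rw [Finsupp.zero_apply, ord_eq_iff, neg_zero, WithZero.exp_zero] at h1
        exact h1
    | single_add v n D' hv hn ih =>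
      intro y hy
      rw [ev_add, ev_single]
      by_cases hvS : v ∈ pls e
      · have h1 : chiS e (a : K) v = 1 := if_pos (Or.inl hvS)
        rw [h1, one_zpow, one_mul]
        apply ih
        intro w hw
        have hne : v ≠ w := fun h ↦ hw (h ▸ hvS)
        rw [hy w hw, Finsupp.add_apply, Finsupp.single_apply, if_neg hne, zero_add]
      · obtain ⟨x, hx⟩ := hB.cls (Finsupp.single v (-1))
        obtain ⟨t, rfl⟩ := LocEmb.exists_locEmb K v
        have hxo : ∀ w ∉ pls e, ord w x = Finsupp.single t.v 1 w := by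
          intro w hw
          rw [ord, hx w hw, toAdd_ofAdd, Finsupp.single_apply, Finsupp.single_apply]
          split_ifs <;> simp
        have hxt : ord t.v x = 1 := by rw [hxo _ hvS, Finsupp.single_eq_same]
        have hxu : x ∈ (pls e ∪ {t.v}).unit K := by
          intro w hw
          rw [Set.mem_union, not_or, Set.mem_singleton_iff] at hw
          have h1 := hxo w hw.1
          rw [Finsupp.single_apply, if_neg (fun h ↦ hw.2 h.symm), ord_eq_iff, neg_zero,
            WithZero.exp_zero] at h1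
          exact h1
        have h2 := diag_mem_globNorm_iff hB ha t hvS hxu (by rw [hxt]; exact odd_one)
        have h3 : sg _ (hB.index_le ha) (diag e x) = chiS e (a : K) t.v := by
          by_cases hta : IsPowMod t.v 2 (a : K)
          · rw [chiS, if_pos (Or.inr hta), sg_eq_one_iff]
            exact h2.2 hta
          · rw [chiS, if_neg (by rw [not_or]; exact ⟨hvS, hta⟩)]
            rcases Int.units_eq_one_or (sg _ (hB.index_le ha) (diag e x)) with h4 | h4
            · rw [sg_eq_one_iff] at h4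
              exact absurd (h2.1 h4) hta
            · exact h4
        have h4 : y = x ^ n * (y * (x ^ n)⁻¹) := by
          rw [mul_comm y, mul_inv_cancel_left]
        have hordz : ∀ w, ord w (x ^ n) = n * ord w x := by
          intro w
          rw [ord, ord, map_zpow, toAdd_zpow, smul_eq_mul]
          ring
        rw [h4, map_mul, map_mul, map_zpow, map_zpow, h3]
        congr 1
        apply ih
        intro w hw
        rw [ord_mul, ord_inv, hordz, hy w hw, hxo w hw, Finsupp.add_apply,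
          Finsupp.single_apply, Finsupp.single_apply]
        split_ifs <;> ring
  exact key _ y fun v _ ↦ (dvs_apply y v).symm

end

end Fermat.Agent.CFT2
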