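import Fermat.Agent.CFT2.Recip1
import Fermat.Agent.CFT.W.Approx

/-!
# Symmetry and nondegeneracy of the Hilbert symbol, weak approximation
-/

set_option autoImplicit false
set_option linter.unusedSectionVars false

open NumberField IsDedekindDomain Module Polynomial
open Fermat.Agent.CFT.W Fermat.Agent.CFT.Embed Fermat.Agent.CFT.SUnits
open Fermat.Agent.CFT.NormGrp Fermat.Agent.CFT.First Fermat.Agent.CFT.ChoosePrime
open Fermat.Agent.CFT.Second (pw mem_pw pow_mem_pw mem_pw_units Aux pls_sum injective_sum PV mem_PV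
  PV_le_H relIndex_pw_unit card_pls)
open Fermat.Agent.CFT.HasseNorm (globNorm mem_globNorm exists_family finite_mem)
open Fermat.Agent.CFT
open Fermat.Agent.LT.I8 (exists_aux index_PV index_formula index_le exists_pow_of_local
  second_inequality_aux)

namespace Fermat.Agent.CFT2

section symm

variable {L : Type*} [Field L]

/-- Symmetry of the Hilbert symbol. -/
theorem normGrp_symm (h2 : (2 : L) ≠ 0) {a y : Lˣ} (h : y ∈ normGrp L 2 (a : L)) :
    a ∈ normGrp L 2 (y : L) := by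
  have hζ : IsPrimitiveRoot (-1 : L) 2 := by
    refine IsPrimitiveRoot.mk_of_lt _ two_pos (by norm_num) ?_
    intro l hl hl2
    obtain rfl : l = 1 := by omega
    rw [pow_one]
    intro h1
    apply h2
    have : (2 : L) = 1 + 1 := by norm_num
    rw [this, ← h1]
    nth_rewrite 2 [h1]
    ring
  by_cases hy : ∃ c : L, c ^ 2 = y
  · rw [normGrp_eq_top hy]; exact Subgroup.mem_top _
  push Not at hy
  by_cases ha : ∃ c : L, c ^ 2 = a
  · obtain ⟨c, hc⟩ := ha
    have hc0 : c ≠ 0 := by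
      rintro rfl
      rw [zero_pow two_ne_zero] at hc
      exact a.ne_zero hc.symm
    have h1 : a = (Units.mk0 c hc0) ^ 2 := Units.ext hc.symm
    rw [h1]
    exact pow_mem_normGrp Nat.prime_two _
  push Not at ha
  have hirr : Fact (Irreducible (X ^ 2 - C (a : L) : L[X])) :=
    ⟨X_pow_sub_C_irreducible_of_prime Nat.prime_two ha⟩
  have hirr' : Fact (Irreducible (X ^ 2 - C (y : L) : L[X])) :=
    ⟨X_pow_sub_C_irreducible_of_prime Nat.prime_two hy⟩
  -- norm of `x + z √b`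
  have key : ∀ (b : L) (hb : ∀ c : L, c ^ 2 ≠ b) (hirr : Fact (Irreducible (X ^ 2 - C b : L[X])))
      (x z : L), Algebra.norm L (algebraMap L (AdjoinRoot (X ^ 2 - C b : L[X])) x +
        algebraMap L (AdjoinRoot (X ^ 2 - C b : L[X])) z * AdjoinRoot.root _) =
        x ^ 2 - b * z ^ 2 := by
    intro b hb hirr x z
    obtain ⟨σ, hD⟩ := Kummer.exists_data Nat.prime_two hζ hb
      (Kummer.root_pow (p := 2) (a := b)) (Kummer.finrank_adjoinRoot Nat.prime_two)
    apply (algebraMap L (AdjoinRoot (X ^ 2 - C b : L[X]))).injective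
    rw [← prod_pow_eq_norm hD Nat.prime_two, Finset.prod_range_succ, Finset.prod_range_one,
      pow_zero, pow_one, AlgEquiv.one_apply, map_add, map_mul, AlgEquiv.commutes,
      AlgEquiv.commutes, hD.apply_root, map_neg, map_one, map_sub, map_mul, map_pow, map_pow,
      ← hD.pow_eq]
    ring
  rw [normGrp_eq_range' ha] at h
  obtain ⟨β, hβ⟩ := h
  obtain ⟨g, hg⟩ := AdjoinRoot.mk_surjective (β : AdjoinRoot (X ^ 2 - C (a : L) : L[X]))
  have hmonic : (X ^ 2 - C (a : L) : L[X]).Monic := monic_X_pow_sub_C _ two_ne_zero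
  have hg2 : AdjoinRoot.mk (X ^ 2 - C (a : L)) (g %ₘ (X ^ 2 - C (a : L))) =
      (β : AdjoinRoot (X ^ 2 - C (a : L) : L[X])) := by
    rw [← hg, AdjoinRoot.mk_eq_mk]
    refine ⟨-(g /ₘ (X ^ 2 - C (a : L))), ?_⟩
    have := modByMonic_add_div g (X ^ 2 - C (a : L))
    linear_combination this
  have hdeg : (g %ₘ (X ^ 2 - C (a : L))).natDegree ≤ 1 := by
    have h1 := natDegree_modByMonic_lt g hmonic (by
      intro h1
      have h2 := congrArg natDegree h1
      rw [natDegree_X_pow_sub_C, natDegree_one] at h2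
      omega)
    rw [natDegree_X_pow_sub_C] at h1
    omega
  obtain ⟨z, x, hzx⟩ := exists_eq_X_add_C_of_natDegree_le_one hdeg
  have hβ2 : (β : AdjoinRoot (X ^ 2 - C (a : L) : L[X])) =
      algebraMap L _ x + algebraMap L _ z * AdjoinRoot.root _ := by
    rw [← hg2, hzx, map_add, map_mul, AdjoinRoot.mk_C, AdjoinRoot.mk_C, AdjoinRoot.mk_X]
    rw [add_comm]
    rfl
  have hyxz : (y : L) = x ^ 2 - a * z ^ 2 := by
    rw [← key a ha hirr x z, ← hβ2, ← hβ]
    rfl
  have hz : z ≠ 0 := by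
    rintro rfl
    exact hy x (by rw [hyxz]; ring)
  rw [normGrp_eq_range' hy]
  have hnorm := key y hy hirr' (x / z) (1 / z)
  have hval : (x / z) ^ 2 - (y : L) * (1 / z) ^ 2 = a := by
    rw [hyxz]
    field_simp
    ring
  rw [hval] at hnorm
  have hne : (algebraMap L (AdjoinRoot (X ^ 2 - C (y : L) : L[X])) (x / z) +
        algebraMap L (AdjoinRoot (X ^ 2 - C (y : L) : L[X])) (1 / z) * AdjoinRoot.root _) ≠ 0 := by
    intro h0
    have hfin : Module.Finite L (AdjoinRoot (X ^ 2 - C (y : L) : L[X])) :=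
      FiniteDimensional.of_finrank_pos
        (by rw [Kummer.finrank_adjoinRoot Nat.prime_two]; norm_num)
    rw [h0, Algebra.norm_zero] at hnorm
    exact a.ne_zero hnorm.symm
  exact ⟨Units.mk0 _ hne, Units.ext hnorm⟩

theorem normGrp_symm_iff (h2 : (2 : L) ≠ 0) (a y : Lˣ) :
    y ∈ normGrp L 2 (a : L) ↔ a ∈ normGrp L 2 (y : L) :=
  ⟨normGrp_symm h2, normGrp_symm h2⟩

theorem normGrp_self {a : Lˣ} (h : ∃ c : L, c ^ 2 = a) : a ∈ pw 2 Lˣ :=
  (mem_pw_units two_ne_zero _).2 h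

/-- nondegeneracy of the Hilbert symbol -/
theorem normGrp_sup_eq_top (h2 : (2 : L) ≠ 0)
    (hidx : ∀ y : Lˣ, (∀ c : L, c ^ 2 ≠ y) → (normGrp L 2 (y : L)).index = 2)
    {a b : Lˣ} (ha : ∀ c : L, c ^ 2 ≠ a) (hb : ∀ c : L, c ^ 2 ≠ b)
    (hab : ∀ c : L, c ^ 2 ≠ (a * b : Lˣ)) :
    normGrp L 2 (b : L) ⊔ normGrp L 2 ((a * b : Lˣ) : L) = ⊤ := by
  by_contra htop
  have h3 := hidx b hb
  have h4 := hidx (a * b) hab
  have h5 := eq_of_index_le_two (A := normGrp L 2 (b : L)) le_sup_left h3.le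
    (by rw [h3]; norm_num) htop
  have h6 := eq_of_index_le_two (A := normGrp L 2 ((a * b : Lˣ) : L)) le_sup_right h4.le
    (by rw [h4]; norm_num) htop
  have h7 : normGrp L 2 (b : L) = normGrp L 2 ((a * b : Lˣ) : L) := h5.trans h6.symm
  have h8 : ∀ y : Lˣ, y ∈ normGrp L 2 (a : L) := by
    intro y
    rw [normGrp_symm_iff h2]
    by_cases hy : y ∈ normGrp L 2 (b : L)
    · have hy' : y ∈ normGrp L 2 ((a * b : Lˣ) : L) := h7 ▸ hy
      rw [normGrp_symm_iff h2] at hy hy'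
      have := mul_mem hy' (inv_mem hy)
      rwa [mul_inv_cancel_right] at this
    · have hy' : y ∉ normGrp L 2 ((a * b : Lˣ) : L) := h7 ▸ hy
      rw [normGrp_symm_iff h2] at hy hy'
      by_cases hys : ∃ c : L, c ^ 2 = y
      · rw [normGrp_eq_top hys]; exact Subgroup.mem_top _
      push Not at hys
      have h9 := Subgroup.mul_mem_iff_of_index_two (hidx y hys) (a := a) (b := b)
      by_contra ha'
      exact hy' (h9.2 (iff_of_false ha' hy))
  have h10 := hidx a ha
  rw [Subgroup.index_eq_one.2 ((Subgroup.eq_top_iff' _).2 h8)] at h10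
  exact absurd h10 (by norm_num)

end symm

section approx

variable {K : Type*} [Field K] [NumberField K]

/-- small valuation implies small norm -/
theorem exists_norm_lt (e : LocEmb K) {δ : ℝ} (hδ : 0 < δ) :
    ∃ N : ℕ, ∀ z : K, e.v.valuation K z ≤ WithZero.exp (-(N : ℤ)) → ‖e.toL z‖ < δ := by
  obtain ⟨π, hπ⟩ := e.v.valuation_exists_uniformizer K
  have hπ1 : ‖e.toL π‖ < 1 := by
    rw [← e.valuation_lt_one_iff, hπ, ← WithZero.exp_zero, WithZero.exp_lt_exp]
    norm_num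
  obtain ⟨N, hN⟩ := exists_pow_lt_of_lt_one hδ hπ1
  refine ⟨N, fun z hz ↦ ?_⟩
  have h1 : e.v.valuation K (π ^ N) = WithZero.exp (-(N : ℤ)) := by
    rw [map_pow, hπ, ← WithZero.exp_nsmul]
    congr 1
    simp
  rw [← h1] at hz
  have h2 : ‖e.toL z‖ ≤ ‖e.toL (π ^ N)‖ := (pl_valuation_le_iff e.φ z (π ^ N)).1 hz
  rw [map_pow, norm_pow] at h2
  exact h2.trans_lt hN

/-- **Weak approximation** -/
theorem exists_approx_family {ι : Type} [Finite ι] {e : ι → LocEmb K}
    (he : Function.Injective fun i ↦ (e i).v) (x : ∀ i, (e i).L) {δ : ℝ} (hδ : 0 < δ) :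
    ∃ y : K, ∀ i, ‖(e i).toL y - x i‖ < δ := by
  have h1 : ∀ i, ∃ k : K, ‖x i - (e i).toL k‖ < δ := fun i ↦ (e i).exists_toL_near (x i) hδ
  choose k hk using h1
  have h2 := fun i ↦ exists_norm_lt (e i) hδ
  choose N hN using h2
  have := Fintype.ofFinite ι
  obtain ⟨y, hy⟩ := exists_valuation_sub_le (fun i ↦ (e i).v) he k (∑ i, N i)
  refine ⟨y, fun i ↦ ?_⟩
  have h3 : ‖(e i).toL (y - k i)‖ < δ := by
    apply hN
    refine (hy i).trans ?_
    rw [WithZero.exp_le_exp, neg_le_neg_iff]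
    exact_mod_cast Finset.single_le_sum (f := N) (fun _ _ ↦ Nat.zero_le _) (Finset.mem_univ i)
  have h4 : (e i).toL y - x i = (e i).toL (y - k i) + (-(x i - (e i).toL (k i))) := by
    rw [map_sub]; ring
  rw [h4]
  refine (IsUltrametricDist.norm_add_le_max _ _).trans_lt (max_lt h3 ?_)
  rw [norm_neg]
  exact hk i

/-- Weak approximation for units, relative error. -/
theorem exists_approx_units {ι : Type} [Finite ι] {e : ι → LocEmb K}
    (he : Function.Injective fun i ↦ (e i).v) (x : ∀ i, ((e i).L)ˣ) {δ : ℝ} (hδ : 0 < δ) :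
    ∃ y : Kˣ, ∀ i, ‖((e i).toU y / x i : ((e i).L)ˣ) - (1 : (e i).L)‖ < δ := by
  have := Fintype.ofFinite ι
  by_cases hι : IsEmpty ι
  · exact ⟨1, fun i ↦ (hι.false i).elim⟩
  rw [not_isEmpty_iff] at hι
  obtain ⟨c, hc0, hc⟩ : ∃ c : ℝ, 0 < c ∧ ∀ i, c ≤ ‖(x i : (e i).L)‖ := by
    obtain ⟨i₀, -, h0⟩ := Finset.exists_min_image Finset.univ (fun i ↦ ‖(x i : (e i).L)‖)
      Finset.univ_nonempty
    exact ⟨_, norm_pos_iff.2 (x i₀).ne_zero, fun i ↦ h0 i (Finset.mem_univ i)⟩
  obtain ⟨y, hy⟩ := exists_approx_family he (fun i ↦ (x i : (e i).L))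
    (δ := min δ 1 * c) (by positivity)
  have hlt : ∀ i, ‖(e i).toL y - x i‖ < min δ 1 * ‖(x i : (e i).L)‖ := fun i ↦
    (hy i).trans_le (mul_le_mul_of_nonneg_left (hc i) (by positivity))
  have hy0 : y ≠ 0 := by
    rintro rfl
    have h1 := hlt (Classical.arbitrary ι)
    rw [map_zero, zero_sub, norm_neg] at h1
    have h2 : min δ 1 * ‖(x (Classical.arbitrary ι) : (e (Classical.arbitrary ι)).L)‖ ≤
        1 * ‖(x (Classical.arbitrary ι) : (e (Classical.arbitrary ι)).L)‖ :=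
      mul_le_mul_of_nonneg_right (min_le_right _ _) (norm_nonneg _)
    rw [one_mul] at h2
    exact absurd h1 (not_lt.2 h2)
  refine ⟨Units.mk0 y hy0, fun i ↦ ?_⟩
  have h1 : (((e i).toU (Units.mk0 y hy0) / x i : ((e i).L)ˣ) : (e i).L) - 1 =
      ((e i).toL y - x i) / x i := by
    rw [Units.val_div_eq_div_val, sub_div, div_self (x i).ne_zero]
    rfl
  rw [h1, norm_div, div_lt_iff₀ (norm_pos_iff.2 (x i).ne_zero)]
  exact (hlt i).trans_le (mul_le_mul_of_nonneg_right (min_le_left _ _) (norm_nonneg _))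

end approx

end Fermat.Agent.CFT2
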