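import Fermat.Agent.CFT2.Recip2

/-!
# Quadratic reciprocity over totally complex fields, II: all places

`mem_globNorm_iff`: for a big finite set `S = pls e` and an `S`-unit `a`, an element `x` of
`∏_{v ∈ S} K_vˣ` is a global element up to norms from `K(√a)` iff the number of places of `S` where
`x` is not a norm is even.
-/

set_option autoImplicit false
set_option linter.unusedSectionVars false

open NumberField IsDedekindDomain Module Polynomial
open Fermat.Agent.CFT.W Fermat.Agent.CFT.Embed Fermat.Agent.CFT.SUnits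
open Fermat.Agent.CFT.NormGrp Fermat.Agent.CFT.First Fermat.Agent.CFT.ChoosePrime
open Fermat.Agent.CFT.Second (pw mem_pw pow_mem_pw mem_pw_units Aux pls_sum injective_sum PV mem_PV
  PV_le_H relIndex_pw_unit card_pls)
open Fermat.Agent.CFT.HasseNorm (globNorm mem_globNorm exists_family finite_mem)
open Fermat.Agent.CFT
open Fermat.Agent.LT.I8 (exists_aux index_PV index_formula index_le exists_pow_of_local
  second_inequality_aux)

namespace Fermat.Agent.CFT2

variable {K : Type*} [Field K] [NumberField K]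

/-- elements close to `1` are squares -/
theorem exists_sq_eq (e : LocEmb K) :
    ∃ δ : ℝ, 0 < δ ∧ ∀ u : e.L, ‖u - 1‖ < δ → ∃ c : e.L, c ^ 2 = u := by
  have hcomp := Local.completeSpace e.q e.L
  have h2 : ((2 : ℕ) : e.L) ≠ 0 := Local.natCast_ne_zero_of_prime e.q e.L Nat.prime_two
  have hpos : 0 < ‖((2 : ℕ) : e.L)‖ := norm_pos_iff.2 h2
  refine ⟨‖((2 : ℕ) : e.L)‖ * (2⁻¹ * ‖((2 : ℕ) : e.L)‖), by positivity, fun u hu ↦ ?_⟩
  obtain ⟨c, -, hc⟩ := LT.I8.exists_pow_eq Nat.prime_two h2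
    (c := 2⁻¹ * ‖((2 : ℕ) : e.L)‖) (κ := 2⁻¹) (by positivity) (by norm_num) (by norm_num) le_rfl
    u hu.le
  exact ⟨c, hc⟩

theorem two_ne_zero_loc (e : LocEmb K) : (2 : e.L) ≠ 0 := by
  have := Local.natCast_ne_zero_of_prime e.q e.L Nat.prime_two
  exact_mod_cast this

theorem index_normGrp_two (e : LocEmb K) (y : (e.L)ˣ) (hy : ∀ c : e.L, c ^ 2 ≠ y) :
    (normGrp e.L 2 (y : e.L)).index = 2 :=
  LT.I8.index_normGrp e.L Nat.prime_two
    ((hzeta (K := K)).map_of_injective e.toL.injective) hy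

section
variable {ι : Type} [Fintype ι] {e : ι → LocEmb K}

/-- weak approximation modulo squares -/
theorem exists_diag_mul (he : Function.Injective fun i ↦ (e i).v) (x : ∀ i, ((e i).L)ˣ) :
    ∃ (y : Kˣ), ∃ z ∈ PV 2 e, x = diag e y * z := by
  have h1 := fun i ↦ exists_sq_eq (e i)
  choose δ hδ0 hδ using h1
  obtain ⟨ε, hε0, hε⟩ : ∃ ε : ℝ, 0 < ε ∧ ∀ i, ε ≤ δ i := by
    by_cases hι : IsEmpty ι
    · exact ⟨1, one_pos, fun i ↦ (hι.false i).elim⟩
    rw [not_isEmpty_iff] at hι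
    obtain ⟨i₀, -, h0⟩ := Finset.exists_min_image Finset.univ δ Finset.univ_nonempty
    exact ⟨δ i₀, hδ0 i₀, fun i ↦ h0 i (Finset.mem_univ i)⟩
  obtain ⟨y, hy⟩ := exists_approx_units he x hε0
  have h2 : ∀ i, (e i).toU y / x i ∈ pw 2 ((e i).L)ˣ := fun i ↦
    (mem_pw_units two_ne_zero _).2 (hδ i _ ((hy i).trans_le (hε i)))
  refine ⟨y, fun i ↦ x i / (e i).toU y, ?_, ?_⟩
  · rw [mem_PV]
    intro i
    have := inv_mem (h2 i)
    rwa [inv_div] at this
  · funext i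
    rw [Pi.mul_apply, diag_apply, mul_div_cancel]

theorem chiS_of_mem {a : K} {v : HeightOneSpectrum (𝓞 K)} (h : v ∈ pls e) : chiS e a v = 1 :=
  if_pos (Or.inl h)

theorem chiS_of_isPow {a : K} {v : HeightOneSpectrum (𝓞 K)} (h : IsPowMod v 2 a) :
    chiS e a v = 1 :=
  if_pos (Or.inr h)

theorem chiS_of_not {a : K} {v : HeightOneSpectrum (𝓞 K)} (hv : v ∉ pls e)
    (h : ¬ IsPowMod v 2 a) : chiS e a v = -1 :=
  if_neg (by rw [not_or]; exact ⟨hv, h⟩)

variable [IsTotallyComplex K]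

theorem PV_le_globNorm (a : K) : PV 2 e ≤ globNorm 2 a e := by
  intro x hx
  rw [mem_PV] at hx
  refine ⟨1, fun i ↦ ?_, fun e' _ ↦ by rw [map_one]; exact Subgroup.one_mem _⟩
  rw [map_one, one_div]
  exact inv_mem (range_pow_le_normGrp Nat.prime_two (hx i))

theorem H_le_globNorm (a : K) : H e 2 a ≤ globNorm 2 a e := by
  intro x hx
  rw [mem_H] at hx
  refine ⟨1, fun i ↦ ?_, fun e' _ ↦ by rw [map_one]; exact Subgroup.one_mem _⟩
  rw [map_one, one_div]
  exact inv_mem (hx i)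

theorem chiS_mul (hB : Big e) {a b : Kˣ} (ha : a ∈ (pls e).unit K) (hb : b ∈ (pls e).unit K)
    (v : HeightOneSpectrum (𝓞 K)) :
    chiS e ((a * b : Kˣ) : K) v = chiS e (a : K) v * chiS e (b : K) v := by
  by_cases hv : v ∈ pls e
  · rw [chiS_of_mem hv, chiS_of_mem hv, chiS_of_mem hv, one_mul]
  obtain ⟨t, rfl⟩ := LocEmb.exists_locEmb K v
  have hq := hB.ne_q t hv
  have hab := mul_mem ha hb
  have h1 := LT.I8.LocEmb.isPow_iff t Nat.prime_two hq (ha _ hv)
  have h2 := LT.I8.LocEmb.isPow_iff t Nat.prime_two hq (hb _ hv)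
  have h3 := LT.I8.LocEmb.isPow_iff t Nat.prime_two hq (hab _ hv)
  have ha0 : t.toL (a : K) ≠ 0 := by rw [Ne, map_eq_zero]; exact a.ne_zero
  have hb0 : t.toL (b : K) ≠ 0 := by rw [Ne, map_eq_zero]; exact b.ne_zero
  by_cases hta : IsPowMod t.v 2 (a : K)
  · obtain ⟨c, hc⟩ := h1.2 hta
    have hc0 : c ≠ 0 := by
      rintro rfl
      rw [zero_pow two_ne_zero] at hc
      exact ha0 hc.symm
    have h4 : IsPowMod t.v 2 ((a * b : Kˣ) : K) ↔ IsPowMod t.v 2 (b : K) := by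
      rw [← h3, ← h2]
      constructor
      · rintro ⟨d, hd⟩
        refine ⟨d / c, ?_⟩
        rw [div_pow, hd, hc, Units.val_mul, map_mul, mul_div_cancel_left₀ _ ha0]
      · rintro ⟨d, hd⟩
        exact ⟨c * d, by rw [mul_pow, hc, hd, Units.val_mul, map_mul]⟩
    rw [chiS_of_isPow hta, one_mul]
    by_cases htb : IsPowMod t.v 2 (b : K)
    · rw [chiS_of_isPow htb, chiS_of_isPow (h4.2 htb)]
    · rw [chiS_of_not hv htb, chiS_of_not hv (fun h ↦ htb (h4.1 h))]
  · by_cases htb : IsPowMod t.v 2 (b : K)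
    · obtain ⟨c, hc⟩ := h2.2 htb
      have hc0 : c ≠ 0 := by
        rintro rfl
        rw [zero_pow two_ne_zero] at hc
        exact hb0 hc.symm
      have h4 : ¬ IsPowMod t.v 2 ((a * b : Kˣ) : K) := by
        rw [← h3]
        rintro ⟨d, hd⟩
        apply hta
        rw [← h1]
        refine ⟨d / c, ?_⟩
        rw [div_pow, hd, hc, Units.val_mul, map_mul, mul_div_cancel_right₀ _ hb0]
      rw [chiS_of_isPow htb, mul_one, chiS_of_not hv hta, chiS_of_not hv h4]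
    · have h4 : IsPowMod t.v 2 ((a * b : Kˣ) : K) := by
        rw [← h3]
        obtain ⟨i, c, hic⟩ := LT.I8.LocEmb.unit_eq_pow_mul t Nat.prime_two hq hzeta (ha _ hv) hta
          (u := t.toL (b : K)) ((t.valuation_eq_one_iff _).1 (hb _ hv))
        rcases Nat.even_or_odd i with hi | hi
        · exfalso
          apply htb
          rw [← h2]
          obtain ⟨k, rfl⟩ := hi
          exact ⟨t.toL (a : K) ^ k * c, by rw [hic]; ring⟩
        · obtain ⟨k, rfl⟩ := hi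
          exact ⟨t.toL (a : K) ^ (k + 1) * c, by rw [Units.val_mul, map_mul, hic]; ring⟩
      rw [chiS_of_not hv hta, chiS_of_not hv htb, chiS_of_isPow h4]
      rfl

/-- (M5) bilinearity -/
theorem sg_mul (hB : Big e) {a b : Kˣ} (ha : a ∈ (pls e).unit K) (hb : b ∈ (pls e).unit K)
    (x : ∀ i, ((e i).L)ˣ) :
    sg _ (hB.index_le (mul_mem ha hb)) x = sg _ (hB.index_le ha) x * sg _ (hB.index_le hb) x := by
  obtain ⟨y, z, hz, rfl⟩ := exists_diag_mul hB.inj x
  have h1 : ∀ {c : Kˣ} (hc : c ∈ (pls e).unit K), sg _ (hB.index_le hc) z = 1 := fun {c} hc ↦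
    (sg_eq_one_iff _ _ _).2 (PV_le_globNorm _ hz)
  rw [map_mul, map_mul, map_mul, h1 (mul_mem ha hb), h1 ha, h1 hb, mul_one, mul_one, mul_one,
    sg_diag hB (mul_mem ha hb), sg_diag hB ha, sg_diag hB hb, ← ev_mul_fun]
  exact ev_congr _ fun v _ ↦ chiS_mul hB ha hb v

theorem mulSingle_mem_H [DecidableEq ι] {a : K} {i₀ : ι} {x : ((e i₀).L)ˣ}
    (hx : x ∈ (e i₀).N 2 a) : Pi.mulSingle (M := fun i ↦ ((e i).L)ˣ) i₀ x ∈ H e 2 a := by
  rw [mem_H]
  intro i
  by_cases h : i = i₀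
  · subst h
    rw [Pi.mulSingle_eq_same]
    exact hx
  · rw [Pi.mulSingle_eq_of_ne h]
    exact Subgroup.one_mem _

/-- (M6) transfer -/
theorem mulSingle_mem_of_bad [DecidableEq ι] (hB : Big e) {i₀ : ι} {a b : Kˣ}
    (ha : a ∈ (pls e).unit K) (hb : b ∈ (pls e).unit K)
    (hns : ∀ c : (e i₀).L, c ^ 2 ≠ (e i₀).toL (a : K))
    (hbad : ∀ x : ((e i₀).L)ˣ, Pi.mulSingle (M := fun i ↦ ((e i).L)ˣ) i₀ x ∈
      globNorm 2 (a : K) e) (x : ((e i₀).L)ˣ) :
    Pi.mulSingle (M := fun i ↦ ((e i).L)ˣ) i₀ x ∈ globNorm 2 (b : K) e := by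
  -- if it is in the group of `a * b` then it is in the group of `b`
  have key : ∀ x : ((e i₀).L)ˣ, Pi.mulSingle (M := fun i ↦ ((e i).L)ˣ) i₀ x ∈
      globNorm 2 ((a * b : Kˣ) : K) e →
      Pi.mulSingle (M := fun i ↦ ((e i).L)ˣ) i₀ x ∈ globNorm 2 (b : K) e := by
    intro x hx
    have h1 := sg_mul hB ha hb (Pi.mulSingle (M := fun i ↦ ((e i).L)ˣ) i₀ x)
    rw [(sg_eq_one_iff _ _ _).2 hx, (sg_eq_one_iff _ _ _).2 (hbad x), one_mul] at h1
    exact (sg_eq_one_iff _ _ _).1 h1.symm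
  by_cases hbs : ∃ c : (e i₀).L, c ^ 2 = (e i₀).toL (b : K)
  · apply H_le_globNorm
    apply mulSingle_mem_H
    rw [LocEmb.N, normGrp_eq_top hbs]
    exact Subgroup.mem_top _
  push Not at hbs
  by_cases habs : ∃ c : (e i₀).L, c ^ 2 = (e i₀).toL ((a * b : Kˣ) : K)
  · apply key
    apply H_le_globNorm
    apply mulSingle_mem_H
    rw [LocEmb.N, normGrp_eq_top habs]
    exact Subgroup.mem_top _
  push Not at habs
  have h1 := normGrp_sup_eq_top (two_ne_zero_loc (e i₀)) (index_normGrp_two (e i₀))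
    (a := (e i₀).toU a) (b := (e i₀).toU b) hns hbs (by
      intro c
      rw [← map_mul]
      exact habs c)
  have h2 : x ∈ normGrp (e i₀).L 2 (((e i₀).toU b : ((e i₀).L)ˣ) : (e i₀).L) ⊔
      normGrp (e i₀).L 2 (((e i₀).toU a * (e i₀).toU b : ((e i₀).L)ˣ) : (e i₀).L) := by
    rw [h1]; exact Subgroup.mem_top _
  rw [Subgroup.mem_sup] at h2
  obtain ⟨y, hy, z, hz, rfl⟩ := h2
  rw [Pi.mulSingle_mul]
  refine mul_mem (H_le_globNorm _ (mulSingle_mem_H hy)) (key z ?_)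
  apply H_le_globNorm
  apply mulSingle_mem_H
  rw [← map_mul] at hz
  exact hz

end

theorem ev_eq_single {G : Type*} [CommGroup G] (f : HeightOneSpectrum (𝓞 K) → G)
    (D : HeightOneSpectrum (𝓞 K) →₀ ℤ) (v₀ : HeightOneSpectrum (𝓞 K))
    (h : ∀ v, v ≠ v₀ → D v ≠ 0 → f v = 1) : ev f D = f v₀ ^ D v₀ := by
  rw [ev, Finsupp.prod]
  by_cases h0 : v₀ ∈ D.support
  · rw [Finset.prod_eq_single v₀]
    · intro v hv hne
      rw [h v hne (Finsupp.mem_support_iff.1 hv), one_zpow]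
    · intro h'; exact absurd h0 h'
  · rw [Finsupp.notMem_support_iff.1 h0, zpow_zero]
    apply Finset.prod_eq_one
    intro v hv
    have hne : v ≠ v₀ := by rintro rfl; exact h0 hv
    rw [h v hne (Finsupp.mem_support_iff.1 hv), one_zpow]

/-- outside `2` there is a unit which is not a square -/
theorem exists_unit_nonsquare (e : LocEmb K) (hq : 2 ≠ e.q) :
    ∃ u : e.L, ‖u‖ = 1 ∧ ∀ c : e.L, c ^ 2 ≠ u := by
  by_contra hcon
  push Not at hcon
  obtain ⟨π, hπ⟩ := e.v.valuation_exists_uniformizer K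
  have hπ0 : π ≠ 0 := by
    rintro rfl
    rw [map_zero] at hπ
    exact WithZero.coe_ne_zero hπ.symm
  let ϖ : (e.L)ˣ := e.toU (Units.mk0 π hπ0)
  have h1 : (pw 2 (e.L)ˣ).index = 4 := by
    rw [pw, LT.I8.LocEmb.index_pow e Nat.prime_two hzeta, if_neg hq]
    norm_num
  have h2 : Subgroup.zpowers ϖ ⊔ pw 2 (e.L)ˣ = ⊤ := by
    rw [eq_top_iff]
    intro x _
    obtain ⟨z, hz0, hz⟩ := e.exists_norm_eq x.ne_zero
    have hzv : e.v.valuation K z ≠ 0 := (Valuation.ne_zero_iff _).2 hz0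
    set n : ℤ := WithZero.log (e.v.valuation K z) with hn
    have h3 : e.v.valuation K z = e.v.valuation K (π ^ (-n)) := by
      rw [map_zpow₀, hπ, ← WithZero.exp_log hzv, ← hn, ← WithZero.exp_zsmul]
      congr 1
      simp
    have h4 : ‖(x : e.L)‖ = ‖((ϖ ^ (-n) : (e.L)ˣ) : e.L)‖ := by
      rw [← hz, (e.valuation_eq_iff _ _).1 h3, map_zpow₀, Units.val_zpow_eq_zpow_val]
      rfl
    obtain ⟨c, hc⟩ := hcon (((ϖ ^ (-n))⁻¹ * x : (e.L)ˣ) : e.L) (by
      rw [Units.val_mul, norm_mul, Units.val_inv_eq_inv_val, norm_inv, h4,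
        inv_mul_cancel₀ (norm_ne_zero_iff.2 (Units.ne_zero _))])
    have h5 : x = ϖ ^ (-n) * ((ϖ ^ (-n))⁻¹ * x) := by rw [mul_inv_cancel_left]
    rw [h5]
    exact Subgroup.mul_mem_sup (Subgroup.zpow_mem_zpowers _ _)
      ((mem_pw_units two_ne_zero _).2 ⟨c, hc⟩)
  have h3 := Second.relIndex_zpowers_le two_ne_zero ϖ
  rw [← Subgroup.relIndex_sup_right, h2, Subgroup.relIndex_top_right, h1] at h3
  omega

section
variable {ι : Type} [Fintype ι] {e : ι → LocEmb K} [IsTotallyComplex K]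

/-- (M7) every place where `a` is not a square is seen by the idele class character of `K(√a)`. -/
theorem exists_mulSingle_notMem [DecidableEq ι] (hB : Big e) {i₀ : ι} {a : Kˣ}
    (ha : a ∈ (pls e).unit K) (hns : ∀ c : (e i₀).L, c ^ 2 ≠ (e i₀).toL (a : K)) :
    ∃ x : ((e i₀).L)ˣ, Pi.mulSingle (M := fun i ↦ ((e i).L)ˣ) i₀ x ∉ globNorm 2 (a : K) e := by
  by_contra hbad
  push Not at hbad
  have haK : ∀ c : K, c ^ 2 ≠ a := fun c hc ↦ hns ((e i₀).toL c) (by rw [← map_pow, hc])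
  obtain ⟨κ, _, T, hκ, hT⟩ := exists_aux₂ hB a (B := pls e) (Set.toFinite _) le_rfl
  have hmem := hbad ((e i₀).toU a)
  rw [globNorm_eq hB ha haK le_rfl hT hκ, Subgroup.mem_sup] at hmem
  obtain ⟨_, ⟨y, hy, rfl⟩, z, hz, hyz⟩ := hmem
  have hsg : ∀ {b : Kˣ} (hb : b ∈ (pls e).unit K), ev (chiS e (b : K)) (dvs (Additive.ofMul y)) = 1 := by
    intro b hb
    rw [← sg_diag hB hb]
    have h1 : sg _ (hB.index_le hb) (diag e y * z) = 1 := by
      rw [hyz, sg_eq_one_iff]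
      exact mulSingle_mem_of_bad hB ha hb hns hbad _
    rw [map_mul, (sg_eq_one_iff _ _ z).2 (PV_le_globNorm _ hz), mul_one] at h1
    exact h1
  have hTe : ∀ j, (T j).v ∉ pls e := hT.not_mem
  -- the valuations of `y` outside `S` are even
  have heven : ∀ v ∉ pls e, Even (ord v y) := by
    intro v hv
    by_cases hvT : v ∈ pls T
    · classical
      obtain ⟨j₀, rfl⟩ := hvT
      obtain ⟨η, hη1, hη⟩ := exists_unit_nonsquare (T j₀) (hB.ne_q _ (hTe j₀))
      obtain ⟨b, hb, hbu⟩ := hT.surj (fun j ↦ if h : j = j₀ then h ▸ η else 1) (by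
        intro j
        by_cases h : j = j₀
        · subst h
          rw [dif_pos rfl]; exact hη1
        · rw [dif_neg h]; exact norm_one)
      have hb0 : ∀ j, (T j).toL (b : K) ≠ 0 := fun j ↦ by
        rw [Ne, map_eq_zero]; exact b.ne_zero
      have h1 : ¬ IsPowMod (T j₀).v 2 (b : K) := by
        rw [← LT.I8.LocEmb.isPow_iff (T j₀) Nat.prime_two (hB.ne_q _ (hTe j₀)) (hb _ (hTe j₀))]
        rintro ⟨d, hd⟩
        obtain ⟨c, hc⟩ := hbu j₀
        rw [dif_pos rfl] at hc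
        have hc' : η = (T j₀).toL (b : K) * c ^ 2 := hc
        exact hη (d * c) (by rw [mul_pow, hd, hc'])
      have h2 : ∀ j, j ≠ j₀ → IsPowMod (T j).v 2 (b : K) := by
        intro j hj
        rw [← LT.I8.LocEmb.isPow_iff (T j) Nat.prime_two (hB.ne_q _ (hTe j)) (hb _ (hTe j))]
        obtain ⟨c, hc⟩ := hbu j
        rw [dif_neg hj] at hc
        have hc0 : c ≠ 0 := by
          rintro rfl
          rw [zero_pow two_ne_zero, mul_zero] at hc
          exact one_ne_zero hc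
        refine ⟨c⁻¹, ?_⟩
        rw [inv_pow]
        exact (eq_inv_of_mul_eq_one_left hc.symm).symm
      have h3 := hsg hb
      rw [ev_eq_single _ _ (T j₀).v, chiS_of_not hv h1, int_units_zpow_eq_one_iff] at h3
      · exact h3
      · intro w hw hwy
        by_cases hwe : w ∈ pls e
        · exact chiS_of_mem hwe
        by_cases hwT : w ∈ pls T
        · obtain ⟨j, rfl⟩ := hwT
          exact chiS_of_isPow (h2 j (fun h ↦ hw (by rw [h])))
        · exfalso
          apply hwy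
          rw [dvs_apply, ord_eq_iff, neg_zero, WithZero.exp_zero]
          exact hy _ (by rw [Set.mem_union, not_or]; exact ⟨hwe, hwT⟩)
    · have h1 : ord v y = 0 := by
        rw [ord_eq_iff, neg_zero, WithZero.exp_zero]
        exact hy _ (by rw [Set.mem_union, not_or]; exact ⟨hv, hvT⟩)
      rw [h1]
      exact Even.zero
  -- divide by a square
  obtain ⟨s, hs⟩ := hB.cls ((dvs (Additive.ofMul y)).mapRange (fun m ↦ -(m / 2)) (by simp))
  have hso : ∀ v ∉ pls e, ord v s = ord v y / 2 := by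
    intro v hv
    rw [ord, hs v hv, toAdd_ofAdd, Finsupp.mapRange_apply, dvs_apply, neg_neg]
  set w : Kˣ := y * (s ^ 2)⁻¹ with hw
  have hwE : w ∈ (pls e).unit K := by
    intro v hv
    have h1 : ord v w = 0 := by
      rw [hw, ord_mul, ord_inv, ord_pow, hso v hv]
      obtain ⟨k, hk⟩ := heven v hv
      rw [hk]
      push_cast
      omega
    rw [ord_eq_iff, neg_zero, WithZero.exp_zero] at h1
    exact h1
  have hyw : y = w * s ^ 2 := by rw [hw, inv_mul_cancel_right]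
  have hwi : ∀ i, ∃ c : (e i).L, c ≠ 0 ∧ (e i).toL (w : K) * c ^ 2 =
      ((Pi.mulSingle (M := fun i ↦ ((e i).L)ˣ) i₀ ((e i₀).toU a) i : ((e i).L)ˣ) : (e i).L) := by
    intro i
    obtain ⟨c, hc⟩ := (mem_PV _).1 hz i
    refine ⟨(((e i).toU s * c : ((e i).L)ˣ) : (e i).L), Units.ne_zero _, ?_⟩
    rw [← hyz, Pi.mul_apply, diag_apply, hyw, ← hc]
    simp only [map_mul, map_pow, Units.val_mul, Units.val_pow_eq_pow_val, LocEmb.coe_toU,
      powMonoidHom_apply]
    ring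
  have hw0 : ∀ c : (e i₀).L, c ^ 2 ≠ (e i₀).toL (w : K) := by
    intro d hd
    obtain ⟨c, -, hc⟩ := hwi i₀
    rw [Pi.mulSingle_eq_same, ← hd, ← mul_pow] at hc
    exact hns _ hc
  have hwsq : ∀ i, i ≠ i₀ → ∃ c : (e i).L, c ^ 2 = (e i).toL (w : K) := by
    intro i hi
    obtain ⟨c, hc0, hc⟩ := hwi i
    rw [Pi.mulSingle_eq_of_ne hi, Units.val_one] at hc
    refine ⟨c⁻¹, ?_⟩
    rw [inv_pow]
    exact (eq_inv_of_mul_eq_one_left hc).symm
  have hwK : ∀ c : K, c ^ 2 ≠ w := fun c hc ↦ hw0 ((e i₀).toL c) (by rw [← map_pow, hc])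
  apply globNorm_ne_top hB hwE hwK
  rw [eq_top_iff]
  intro x _
  have h1 : x = Pi.mulSingle (M := fun i ↦ ((e i).L)ˣ) i₀ (x i₀) *
      ((Pi.mulSingle (M := fun i ↦ ((e i).L)ˣ) i₀ (x i₀))⁻¹ * x) := by
    rw [mul_inv_cancel_left]
  rw [h1]
  refine mul_mem (mulSingle_mem_of_bad hB ha hwE hns hbad _) (H_le_globNorm _ ?_)
  rw [mem_H]
  intro i
  by_cases h : i = i₀
  · subst h
    rw [Pi.mul_apply, Pi.inv_apply, Pi.mulSingle_eq_same, inv_mul_cancel]
    exact Subgroup.one_mem _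
  · rw [LocEmb.N, normGrp_eq_top (hwsq i h)]
    exact Subgroup.mem_top _

end

end Fermat.Agent.CFT2
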