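import Fermat.Agent.CFT2.Recip3

/-!
# Quadratic reciprocity over totally complex fields, III: the theorem for arbitrary families
-/

set_option autoImplicit false
set_option linter.unusedSectionVars false

open NumberField IsDedekindDomain Module Polynomial
open Fermat.Agent.CFT.W Fermat.Agent.CFT.Embed Fermat.Agent.CFT.SUnits
open Fermat.Agent.CFT.NormGrp Fermat.Agent.CFT.First Fermat.Agent.CFT.ChoosePrime
open Fermat.Agent.CFT.Second (pw mem_pw pow_mem_pw mem_pw_units Aux pls_sum injective_sum PV mem_PV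
  PV_le_H relIndex_pw_unit card_pls)
open Fermat.Agent.CFT.HasseNorm (globNorm mem_globNorm exists_family finite_mem)
open Fermat.Agent.CFT
open Fermat.Agent.LT.I8 (exists_aux index_PV index_formula index_le exists_pow_of_local
  second_inequality_aux)

namespace Fermat.Agent.CFT2

variable {K : Type*} [Field K] [NumberField K]

open Classical in
/-- the local symbol: `1` if `x` is a norm, `-1` otherwise -/
noncomputable def lsym (e : LocEmb K) (a : K) (x : (e.L)ˣ) : ℤˣ := if x ∈ e.N 2 a then 1 else -1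

theorem lsym_eq_one_iff (e : LocEmb K) (a : K) (x : (e.L)ˣ) : lsym e a x = 1 ↔ x ∈ e.N 2 a := by
  classical
  rw [lsym]
  by_cases hx : x ∈ e.N 2 a
  · simp [hx]
  · simp only [hx, if_false, iff_false]
    decide

theorem index_N_le (e : LocEmb K) (a : Kˣ) :
    (e.N 2 (a : K)).index ≤ 2 ∧ (e.N 2 (a : K)).index ≠ 0 := by
  by_cases h : ∃ c : e.L, c ^ 2 = e.toL (a : K)
  · rw [LocEmb.N, normGrp_eq_top h, Subgroup.index_top]
    norm_num
  · push Not at h
    rw [LT.I8.LocEmb.index_N e Nat.prime_two hzeta h]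
    norm_num

theorem lsym_eq_sg (e : LocEmb K) (a : Kˣ) (x : (e.L)ˣ) :
    lsym e (a : K) x = sg _ (index_N_le e a) x := by
  rcases Int.units_eq_one_or (lsym e (a : K) x) with h | h
  · rw [h, eq_comm, sg_eq_one_iff]
    exact (lsym_eq_one_iff _ _ _).1 h
  · rw [h]
    rcases Int.units_eq_one_or (sg _ (index_N_le e a) x) with h' | h'
    · rw [sg_eq_one_iff, ← lsym_eq_one_iff, h] at h'
      exact absurd h' (by decide)
    · exact h'.symm

theorem lsym_mul (e : LocEmb K) (a : Kˣ) (x y : (e.L)ˣ) :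
    lsym e (a : K) (x * y) = lsym e (a : K) x * lsym e (a : K) y := by
  rw [lsym_eq_sg, lsym_eq_sg, lsym_eq_sg, map_mul]

theorem lsym_inv (e : LocEmb K) (a : Kˣ) (x : (e.L)ˣ) :
    lsym e (a : K) x⁻¹ = lsym e (a : K) x := by
  rw [lsym_eq_sg, lsym_eq_sg, map_inv, Int.units_inv_eq_self]

section
variable {ι : Type} [Fintype ι] {e : ι → LocEmb K} [IsTotallyComplex K]

/-- **Reciprocity**, first form. -/
theorem mem_globNorm_iff_of_big (hB : Big e) {a : Kˣ} (ha : a ∈ (pls e).unit K)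
    (x : ∀ i, ((e i).L)ˣ) :
    x ∈ globNorm 2 (a : K) e ↔ ∏ i, lsym (e i) (a : K) (x i) = 1 := by
  classical
  rw [← sg_eq_one_iff _ (hB.index_le ha)]
  have h1 : ∀ (i : ι) (z : ((e i).L)ˣ),
      sg _ (hB.index_le ha) (Pi.mulSingle (M := fun i ↦ ((e i).L)ˣ) i z) =
        lsym (e i) (a : K) z := by
    intro i z
    have h2 : z ∈ (e i).N 2 (a : K) →
        sg _ (hB.index_le ha) (Pi.mulSingle (M := fun i ↦ ((e i).L)ˣ) i z) = 1 := fun hz ↦
      (sg_eq_one_iff _ _ _).2 (H_le_globNorm _ (mulSingle_mem_H hz))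
    by_cases hz : z ∈ (e i).N 2 (a : K)
    · rw [h2 hz, (lsym_eq_one_iff _ _ _).2 hz]
    · have h3 : lsym (e i) (a : K) z = -1 :=
        (Int.units_eq_one_or _).resolve_left (fun h ↦ hz ((lsym_eq_one_iff _ _ _).1 h))
      rw [h3]
      have hns : ∀ c : (e i).L, c ^ 2 ≠ (e i).toL (a : K) := by
        intro c hc
        apply hz
        rw [LocEmb.N, normGrp_eq_top ⟨c, hc⟩]
        exact Subgroup.mem_top _
      obtain ⟨x₀, hx₀⟩ := exists_mulSingle_notMem hB ha hns
      have h4 : x₀ ∉ (e i).N 2 (a : K) := fun h ↦ hx₀ (H_le_globNorm _ (mulSingle_mem_H h))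
      have h5 : z * x₀ ∈ (e i).N 2 (a : K) := by
        rw [← lsym_eq_one_iff, lsym_mul, h3]
        have h6 : lsym (e i) (a : K) x₀ = -1 :=
          (Int.units_eq_one_or _).resolve_left (fun h ↦ h4 ((lsym_eq_one_iff _ _ _).1 h))
        rw [h6]
        rfl
      have h7 : sg _ (hB.index_le ha)
          (Pi.mulSingle (M := fun i ↦ ((e i).L)ˣ) i (z * x₀)) = 1 :=
        (sg_eq_one_iff _ _ _).2 (H_le_globNorm _ (mulSingle_mem_H h5))
      have h8 : sg _ (hB.index_le ha) (Pi.mulSingle (M := fun i ↦ ((e i).L)ˣ) i x₀) = -1 :=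
        (Int.units_eq_one_or _).resolve_left (fun h ↦ hx₀ ((sg_eq_one_iff _ _ _).1 h))
      rw [Pi.mulSingle_mul, map_mul, h8] at h7
      rw [← neg_eq_iff_eq_neg, ← mul_neg_one]
      exact h7
  have h2 : x = ∏ i, Pi.mulSingle (M := fun i ↦ ((e i).L)ˣ) i (x i) :=
    (Finset.univ_prod_mulSingle x).symm
  conv_lhs => rw [h2]
  rw [map_prod, Finset.prod_congr rfl fun i _ ↦ h1 i (x i)]

/-- **Reciprocity** for arbitrary families of places. -/
theorem mem_globNorm_iff (he : Function.Injective fun i ↦ (e i).v) (a : Kˣ)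
    (x : ∀ i, ((e i).L)ˣ) :
    x ∈ globNorm 2 (a : K) e ↔ ∏ i, lsym (e i) (a : K) (x i) = 1 := by
  obtain ⟨S, hSf, hSle, hS⟩ := exists_classTrivial K
    (pls e ∪ {v : HeightOneSpectrum (𝓞 K) | ((2 : ℕ) : 𝓞 K) ∈ v.asIdeal} ∪
      {v : HeightOneSpectrum (𝓞 K) | v.valuation K (a : K) ≠ 1})
    (((Set.finite_range _).union (finite_mem two_ne_zero)).union
      (ChoosePrime.finite_valuation_ne_one a))
  obtain ⟨n, e₁, he₁, hpls₁⟩ := exists_family (S \ pls e) (hSf.subset Set.sdiff_subset)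
  have hdisj : ∀ j, (e₁ j).v ∉ pls e := by
    intro j
    have h1 : (e₁ j).v ∈ pls e₁ := mem_pls e₁ j
    rw [hpls₁] at h1
    exact h1.2
  have hinj := injective_sum he he₁ hdisj
  have hpls : pls (Sum.elim e e₁) = S := by
    rw [pls_sum, hpls₁, Set.union_sdiff_cancel]
    exact fun v hv ↦ hSle (Or.inl (Or.inl hv))
  have hB : Big (Sum.elim e e₁) := ⟨hinj, by rwa [hpls],
    fun v hv ↦ by rw [hpls]; exact hSle (Or.inl (Or.inr hv))⟩
  have ha : a ∈ (pls (Sum.elim e e₁)).unit K := fun v hv ↦ by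
    rw [hpls] at hv
    by_contra hne
    exact hv (hSle (Or.inr hne))
  let f : ∀ i, ((Sum.elim e e₁ i).L)ˣ := fun i ↦ match i with
    | Sum.inl i => x i
    | Sum.inr _ => 1
  have h1 : x ∈ globNorm 2 (a : K) e ↔ f ∈ globNorm 2 (a : K) (Sum.elim e e₁) := by
    constructor
    · rintro ⟨y, hy1, hy2⟩
      refine ⟨y, ?_, fun e' he' ↦ hy2 e' (fun i ↦ he' (Sum.inl i))⟩
      rintro (i | j)
      · exact hy1 i
      · have h2 : (e₁ j).toU y / 1 ∈ (e₁ j).N 2 (a : K) := by
          rw [div_one]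
          exact hy2 _ (fun i hi ↦ hdisj j ⟨i, hi⟩)
        exact h2
    · rintro ⟨y, hy1, hy2⟩
      refine ⟨y, fun i ↦ hy1 (Sum.inl i), fun e' he' ↦ ?_⟩
      by_cases h : e'.v ∈ pls e₁
      · obtain ⟨j, hj⟩ := h
        have h2 : (e₁ j).toU y / 1 ∈ (e₁ j).N 2 (a : K) := hy1 (Sum.inr j)
        rw [div_one] at h2
        exact LocEmb.mem_N_of_v_eq hj Nat.prime_two h2
      · apply hy2
        rintro (i | i)
        · exact he' i
        · exact fun h' ↦ h ⟨i, h'⟩
  rw [h1, mem_globNorm_iff_of_big hB ha, Fintype.prod_sum_type]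
  have h2 : ∏ j, lsym (Sum.elim e e₁ (Sum.inr j)) (a : K) (f (Sum.inr j)) = 1 := by
    apply Finset.prod_eq_one
    intro j _
    rw [lsym_eq_one_iff]
    exact Subgroup.one_mem _
  rw [h2, mul_one]
  rfl

/-- **Hilbert reciprocity**: if `e` contains all places where `y` is not a norm, the product of the
local symbols is `1`. -/
theorem prod_lsym_eq_one (he : Function.Injective fun i ↦ (e i).v) (a y : Kˣ)
    (hy : ∀ e' : LocEmb K, (∀ i, (e i).v ≠ e'.v) → e'.toU y ∈ e'.N 2 (a : K)) :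
    ∏ i, lsym (e i) (a : K) ((e i).toU y) = 1 := by
  have h1 := (mem_globNorm_iff he a (fun i ↦ (e i).toU y)).1
    ⟨y, fun i ↦ by rw [div_self']; exact Subgroup.one_mem _, hy⟩
  exact h1

end

end Fermat.Agent.CFT2
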